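import Mathlib.Tactic.Ring
import Mathlib.Algebra.Ring.Int.Defs
import Mathlib.RingTheory.Coprime.Basic

/-!
# Rational points of order 25: the forms

With `u = a / c`, `u ^ 5` the parameter of the Tate normal form of a point of order `5`, the
discriminant is `(a c) ^ 25` times `formH a c`, and `formH` contains the quartic `formQ`, the norm
of `a ^ 2 - a c + φ ^ 2 c ^ 2` from `ℤ[φ]`.
-/

set_option autoImplicit false

namespace FA.TwentyFive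

/-- `a ^ 10 - 11 a ^ 5 c ^ 5 - c ^ 10`. -/
def formH (a c : ℤ) : ℤ := a ^ 10 - 11 * a ^ 5 * c ^ 5 - c ^ 10

/-- The norm of `a ^ 2 - a c + φ ^ 2 c ^ 2`. -/
def formQ (a c : ℤ) : ℤ := a ^ 4 - 2 * a ^ 3 * c + 4 * a ^ 2 * c ^ 2 - 3 * a * c ^ 3 + c ^ 4

/-- The cofactor of `formQ` in `formH`. -/
def formR (a c : ℤ) : ℤ :=
  (a ^ 2 - a * c - c ^ 2) * (a ^ 4 + 3 * a ^ 3 * c + 4 * a ^ 2 * c ^ 2 + 2 * a * c ^ 3 + c ^ 4)

theorem formH_eq_mul (a c : ℤ) : formH a c = formQ a c * formR a c := by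
  simp only [formH, formQ, formR]; ring

/-- A fifth root of `a ^ 2 - a c + φ ^ 2 c ^ 2` in `ℤ[φ]`, written `(m + n √5) / 2`. -/
def IsFifthRoot (a c m n : ℤ) : Prop :=
  m ^ 5 + 50 * m ^ 3 * n ^ 2 + 125 * m * n ^ 4 = 16 * (2 * a ^ 2 - 2 * a * c + 3 * c ^ 2) ∧
    5 * m ^ 4 * n + 50 * m ^ 2 * n ^ 3 + 25 * n ^ 5 = 16 * c ^ 2

end FA.TwentyFive
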