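import Fermat.Agent.Torsion.Tate
import Fermat.Agent.TwentyFive.Defs
import Mathlib.RingTheory.IntegralDomain

/-!
# The family of a point of order 25

On `y² + (C-A) x y - A C² y = x³ - A C x²` the origin `T` has order `5`. A point `P` with
`5 P = T` gives a chain of lines through `P`, `2 P`, `4 P` and `-T`, and a fifth root `U` of `A C⁴`.
-/

set_option autoImplicit false

noncomputable section

open WeierstrassCurve

namespace FA.TwentyFive

/-- The family with the origin of order `5`. -/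
def famW {R : Type*} [CommRing R] (A C : R) : WeierstrassCurve R :=
  ⟨C - A, -(A * C), -(A * C ^ 2), 0, 0⟩

theorem map_famW {R S : Type*} [CommRing R] [CommRing S] (φ : R →+* S) (A C : R) :
    (famW A C).map φ = famW (φ A) (φ C) := by
  ext <;> simp [famW]

section Ring

variable {R : Type*} [CommRing R]

/-- The equation of the family. -/
def famEq (A C x y : R) : Prop :=
  y ^ 2 + (C - A) * x * y - A * C ^ 2 * y = x ^ 3 - A * C * x ^ 2

/-- The function with divisor `5 T - 5 O`. -/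
def fF (C x y : R) : R := x * y - C * x ^ 2 + C ^ 2 * y

/-- The ordinate of the opposite point. -/
def negF (A C x y : R) : R := -y - (C - A) * x + A * C ^ 2

/-- The line `y = l x + n` meets the curve at the abscissas `x₁`, `x₂`, `x₃`. -/
structure IsLine (A C x₁ x₂ x₃ l n : R) : Prop where
  e1 : x₁ + x₂ + x₃ = l ^ 2 + (C - A) * l + A * C
  e2 : x₁ * x₂ + x₁ * x₃ + x₂ * x₃ = -(2 * l * n + (C - A) * n - A * C ^ 2 * l)
  e3 : x₁ * x₂ * x₃ = n ^ 2 - A * C ^ 2 * n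

theorem prod_quadratic (a b c x₁ x₂ x₃ p q r : R) (hp : x₁ + x₂ + x₃ = p)
    (hq : x₁ * x₂ + x₁ * x₃ + x₂ * x₃ = q) (hr : x₁ * x₂ * x₃ = r) :
    (a * x₁ ^ 2 + b * x₁ + c) * (a * x₂ ^ 2 + b * x₂ + c) * (a * x₃ ^ 2 + b * x₃ + c) =
      a ^ 3 * r ^ 2 + a ^ 2 * b * r * q + a ^ 2 * c * (q ^ 2 - 2 * p * r) + a * b ^ 2 * r * p +
        a * b * c * (p * q - 3 * r) + a * c ^ 2 * (p ^ 2 - 2 * q) + b ^ 3 * r + b ^ 2 * c * q +
        b * c ^ 2 * p + c ^ 3 := by
  subst hp hq hr; ring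

theorem IsLine.prod_fF {A C x₁ x₂ x₃ l n : R} (h : IsLine A C x₁ x₂ x₃ l n) :
    fF C x₁ (l * x₁ + n) * fF C x₂ (l * x₂ + n) * fF C x₃ (l * x₃ + n) = n ^ 5 := by
  have e : ∀ x, fF C x (l * x + n) = (l - C) * x ^ 2 + (n + C ^ 2 * l) * x + C ^ 2 * n :=
    fun x => by simp only [fF]; ring
  rw [e, e, e, prod_quadratic _ _ _ _ _ _ _ _ _ h.e1 h.e2 h.e3]
  ring

theorem fF_mul_neg {A C x y : R} (h : famEq A C x y) :
    fF C x y * fF C x (negF A C x y) = -x ^ 5 := by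
  simp only [famEq] at h
  simp only [fF, negF]
  linear_combination -(x + C ^ 2) ^ 2 * h

/-- The chain of lines attached to `P` with `5 P = T`. -/
structure Chain (A C : R) where
  x1 : R
  y1 : R
  x2 : R
  y2 : R
  x4 : R
  y4 : R
  l2 : R
  n2 : R
  l4 : R
  n4 : R
  l : R
  eq1 : famEq A C x1 y1
  eq2 : famEq A C x2 y2
  eq4 : famEq A C x4 y4
  line2 : IsLine A C x1 x1 x2 l2 n2
  on2 : y1 = l2 * x1 + n2
  on2' : negF A C x2 y2 = l2 * x2 + n2
  line4 : IsLine A C x2 x2 x4 l4 n4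
  on4 : y2 = l4 * x2 + n4
  on4' : negF A C x4 y4 = l4 * x4 + n4
  line : IsLine A C x1 x4 0 l (A * C ^ 2)
  on1 : y1 = l * x1 + A * C ^ 2
  on4'' : y4 = l * x4 + A * C ^ 2

theorem Chain.prod_two {A C : R} (D : Chain A C) :
    fF C D.x1 D.y1 ^ 2 * fF C D.x2 (negF A C D.x2 D.y2) = D.n2 ^ 5 := by
  rw [D.on2', D.on2, sq]; exact D.line2.prod_fF

theorem Chain.prod_four {A C : R} (D : Chain A C) :
    fF C D.x2 D.y2 ^ 2 * fF C D.x4 (negF A C D.x4 D.y4) = D.n4 ^ 5 := by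
  rw [D.on4', D.on4, sq]; exact D.line4.prod_fF

theorem Chain.prod_last {A C : R} (D : Chain A C) :
    fF C D.x1 D.y1 * fF C D.x4 D.y4 * (A * C ^ 4) = (A * C ^ 2) ^ 5 := by
  rw [D.on1, D.on4'']
  calc _ = fF C D.x1 (D.l * D.x1 + A * C ^ 2) * fF C D.x4 (D.l * D.x4 + A * C ^ 2) *
        fF C 0 (D.l * 0 + A * C ^ 2) := by simp only [fF]; ring
    _ = _ := D.line.prod_fF

end Ring

section Field

variable {K : Type*} [Field K]

/-- The fifth root of `A C⁴`. -/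
def Chain.U {A C : K} (D : Chain A C) : K :=
  -(A * C ^ 2 * D.n4 * D.n2 ^ 2) / (D.x4 * D.x2 ^ 2 * fF C D.x1 D.y1)

theorem Chain.fF1_ne_zero {A C : K} (D : Chain A C) (hA : A ≠ 0) (hC : C ≠ 0) :
    fF C D.x1 D.y1 ≠ 0 := fun h => by
  have e := D.prod_last
  rw [h, zero_mul, zero_mul] at e
  exact pow_ne_zero 5 (mul_ne_zero hA (pow_ne_zero 2 hC)) e.symm

theorem Chain.U_pow {A C : K} (D : Chain A C) (hA : A ≠ 0) (hC : C ≠ 0) (h2 : D.x2 ≠ 0)
    (h4 : D.x4 ≠ 0) : D.U ^ 5 = A * C ^ 4 := by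
  have hf := D.fF1_ne_zero hA hC
  have e2 := D.prod_two
  have e4 := D.prod_four
  have eT := D.prod_last
  have v2 := fF_mul_neg D.eq2
  have v4 := fF_mul_neg D.eq4
  rw [Chain.U, div_pow, div_eq_iff (pow_ne_zero 5 (mul_ne_zero (mul_ne_zero h4
    (pow_ne_zero 2 h2)) hf))]
  set f1 := fF C D.x1 D.y1
  set f2 := fF C D.x2 D.y2
  set g2 := fF C D.x2 (negF A C D.x2 D.y2)
  set f4 := fF C D.x4 D.y4
  set g4 := fF C D.x4 (negF A C D.x4 D.y4)
  calc (-(A * C ^ 2 * D.n4 * D.n2 ^ 2)) ^ 5 =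
        -((A * C ^ 2) ^ 5 * D.n4 ^ 5 * (D.n2 ^ 5) ^ 2) := by ring
    _ = -((f1 * f4 * (A * C ^ 4)) * (f2 ^ 2 * g4) * (f1 ^ 2 * g2) ^ 2) := by rw [eT, e4, e2]
    _ = -(A * C ^ 4 * f1 ^ 5 * (f4 * g4) * (f2 * g2) ^ 2) := by ring
    _ = _ := by rw [v2, v4]; ring

theorem famEq_iff {A C x y : K} : (famW A C).toAffine.Equation x y ↔ famEq A C x y := by
  rw [Affine.equation_iff, famEq]
  simp only [famW]
  constructor <;> intro h <;> linear_combination h

theorem negY_famW (A C x y : K) : (famW A C).toAffine.negY x y = negF A C x y := by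
  simp [Affine.negY, famW, negF]

variable [DecidableEq K]

/-- The line of a sum of two points. -/
theorem exists_line {A C x₁ y₁ x₂ y₂ x₃ y₃ : K} {h₁ : (famW A C).toAffine.Nonsingular x₁ y₁}
    {h₂ : (famW A C).toAffine.Nonsingular x₂ y₂} {h₃ : (famW A C).toAffine.Nonsingular x₃ y₃}
    (h : (Affine.Point.some x₁ y₁ h₁ + .some x₂ y₂ h₂ : (famW A C).toAffine.Point) = .some x₃ y₃ h₃) :
    ∃ l n, IsLine A C x₁ x₂ x₃ l n ∧ y₁ = l * x₁ + n ∧ y₂ = l * x₂ + n ∧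
      negF A C x₃ y₃ = l * x₃ + n := by
  have hxy : ¬ (x₁ = x₂ ∧ y₁ = (famW A C).toAffine.negY x₂ y₂) := fun e => by
    rw [Affine.Point.add_of_Y_eq e.1 e.2] at h
    exact Affine.Point.some_ne_zero _ h.symm
  rw [Affine.Point.add_some hxy, Affine.Point.some.injEq] at h
  obtain ⟨hx, hy⟩ := h
  set l := (famW A C).toAffine.slope x₁ x₂ y₁ y₂ with hl
  have hp := Affine.addPolynomial_slope h₁.1 h₂.1 hxy
  rw [Affine.addPolynomial_eq, neg_inj, Cubic.prod_X_sub_C_eq, Cubic.toPoly_injective] at hp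
  simp only [Cubic.mk.injEq, ← hl, true_and, hx] at hp
  obtain ⟨q1, q2, q3⟩ := hp
  simp only [famW] at q1 q2 q3
  refine ⟨l, y₁ - l * x₁, ⟨?_, ?_, ?_⟩, by ring, ?_, ?_⟩
  · linear_combination q1
  · linear_combination -q2
  · linear_combination q3
  · rcases eq_or_ne x₁ x₂ with e | e
    · have hy' : y₁ ≠ (famW A C).toAffine.negY x₂ y₂ := fun e' => hxy ⟨e, e'⟩
      rw [← e, Affine.Y_eq_of_Y_ne h₁.1 h₂.1 e hy']
      ring
    · have := Affine.slope_of_X_ne (W := (famW A C).toAffine) (y₁ := y₁) (y₂ := y₂) e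
      rw [← hl, eq_div_iff (sub_ne_zero.mpr e)] at this
      linear_combination this
  · rw [← hy, ← negY_famW, Affine.addY, hx, Affine.negY_negY, Affine.negAddY, hx]
    ring

omit [DecidableEq K] in
theorem neg_origin {A C : K} {h0 : (famW A C).toAffine.Nonsingular 0 0} :
    ∃ h, -(Affine.Point.some 0 0 h0 : (famW A C).toAffine.Point) = .some 0 (A * C ^ 2) h := by
  have e : (famW A C).toAffine.negY 0 0 = A * C ^ 2 := by simp [famW, Affine.negY]
  have hn := (Affine.nonsingular_neg 0 0).mpr h0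
  rw [e] at hn
  exact ⟨hn, by rw [Affine.Point.neg_some, Affine.Point.some.injEq]; exact ⟨rfl, e⟩⟩

/-- A point `P` of order `25` with `5 P = T` gives a chain. -/
theorem exists_chain {A C : K} {h0 : (famW A C).toAffine.Nonsingular 0 0}
    {x y : K} {h : (famW A C).toAffine.Nonsingular x y}
    (hP : addOrderOf (Affine.Point.some x y h : (famW A C).toAffine.Point) = 25)
    (hT : 5 • (Affine.Point.some x y h : (famW A C).toAffine.Point) = .some 0 0 h0) :
    ∃ D : Chain A C, D.x1 = x ∧ D.y1 = y ∧ D.x2 ≠ 0 ∧ D.x4 ≠ 0 ∧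
      (∃ h2, 2 • (Affine.Point.some x y h : (famW A C).toAffine.Point) = .some D.x2 D.y2 h2) ∧
      ∃ h4, 4 • (Affine.Point.some x y h : (famW A C).toAffine.Point) = .some D.x4 D.y4 h4 := by
  set P : (famW A C).toAffine.Point := Affine.Point.some x y h with hPdef
  have ne0 : ∀ k : ℕ, ¬ 25 ∣ k → k • P ≠ 0 := fun k hk e =>
    hk (hP ▸ addOrderOf_dvd_of_nsmul_eq_zero e)
  have hpt : ∀ k : ℕ, ¬ 25 ∣ k → ∃ x' y' h', k • P = .some x' y' h' := fun k hk => by
    rcases hk' : k • P with _ | ⟨x', y', h'⟩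
    · exact absurd hk' (ne0 k hk)
    · exact ⟨x', y', h', rfl⟩
  obtain ⟨x2, y2, h2, e2⟩ := hpt 2 (by decide)
  obtain ⟨x4, y4, h4, e4⟩ := hpt 4 (by decide)
  obtain ⟨l2, n2, L2, o2, -, o2'⟩ := exists_line (h₁ := h) (h₂ := h) (h₃ := h2)
    (by rw [← e2, two_nsmul])
  obtain ⟨l4, n4, L4, o4, -, o4'⟩ := exists_line (h₁ := h2) (h₂ := h2) (h₃ := h4)
    (by rw [← e2, ← e4, ← add_nsmul])
  obtain ⟨l, n, L, o1, o4'', o0⟩ := exists_line (h₁ := h) (h₂ := h4) (h₃ := h0)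
    (by rw [← e4, ← hPdef, ← hT, ← succ_nsmul' P 4])
  obtain rfl : n = A * C ^ 2 := by
    simp only [negF] at o0
    linear_combination -o0
  have x_ne : ∀ (k : ℕ) (x' y' : K) (h' : (famW A C).toAffine.Nonsingular x' y'), k < 5 → 1 ≤ k →
      k • P = .some x' y' h' → x' ≠ 0 := by
    intro k x' y' h' hk hk1 ek e0
    subst e0
    rcases FA.Thirteen.eq_or_eq_neg_of_X_eq (h₁ := h') (h₂ := h0) with e | e <;>
      rw [← ek, ← hT] at e
    · refine ne0 (5 - k) (by omega) ?_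
      have h5 : (5 - k) • P + k • P = k • P := by rw [← add_nsmul, Nat.sub_add_cancel hk.le, e]
      exact add_eq_right.mp h5
    · exact ne0 (k + 5) (by omega) (by rw [add_nsmul, e, neg_add_cancel])
  exact ⟨⟨x, y, x2, y2, x4, y4, l2, n2, l4, n4, l, famEq_iff.mp h.1, famEq_iff.mp h2.1,
    famEq_iff.mp h4.1, L2, o2, o2', L4, o4, o4', L, o1, o4''⟩, rfl, rfl,
    x_ne 2 x2 y2 h2 (by norm_num) (by norm_num) e2,
    x_ne 4 x4 y4 h4 (by norm_num) (by norm_num) e4, ⟨h2, e2⟩, h4, e4⟩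

end Field

open FA.Frob (vcX vcY vcEquiv vcEquiv_some) in
/-- **The family of a point of order `25`.** -/
theorem exists_family (E : WeierstrassCurve ℚ) [E.IsElliptic] (P : E.toAffine.Point)
    (hP : addOrderOf P = 25) :
    ∃ a c : ℤ, IsCoprime a c ∧ a ≠ 0 ∧ c ≠ 0 ∧ formH a c ≠ 0 ∧
      ∃ (h0 : (famW ((a : ℚ) ^ 5) ((c : ℚ) ^ 5)).toAffine.Nonsingular 0 0)
        (x y : ℚ) (h : (famW ((a : ℚ) ^ 5) ((c : ℚ) ^ 5)).toAffine.Nonsingular x y),
        addOrderOf (Affine.Point.some x y h : (famW ((a : ℚ) ^ 5) ((c : ℚ) ^ 5)).toAffine.Point) = 25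
        ∧ 5 • (Affine.Point.some x y h : (famW ((a : ℚ) ^ 5) ((c : ℚ) ^ 5)).toAffine.Point) =
          .some 0 0 h0 := by
  classical
  have hT : addOrderOf (5 • P) = 5 := by
    rw [addOrderOf_nsmul' _ (by norm_num), hP]; norm_num
  obtain ⟨b, c, h0, hE, e, he⟩ := FA.Torsion.exists_tate (5 • P)
    (fun h => by have := hT ▸ addOrderOf_dvd_of_nsmul_eq_zero h; norm_num at this)
    (fun h => by have := hT ▸ addOrderOf_dvd_of_nsmul_eq_zero h; norm_num at this)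
  obtain rfl : b = c := by
    obtain ⟨h3, e3⟩ := FA.Torsion.tate_three (b := b) (c := c) (h0 := h0)
    obtain ⟨h2, e2⟩ := FA.Torsion.tate_two (b := b) (c := c) (h0 := h0)
    have h5 : 5 • Affine.Point.some 0 0 h0 = 0 := by
      rw [← hT, ← FA.Torsion.addOrderOf_equiv he]; exact addOrderOf_nsmul_eq_zero _
    rw [show 5 = 3 + 2 from rfl, add_nsmul, e3, e2, add_eq_zero_iff_eq_neg,
      Affine.Point.neg_some, Affine.Point.some.injEq] at h5
    exact h5.1.symm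
  have hb := FA.Torsion.tate_b_ne_zero b b
  have hfam : FA.Thirteen.tateCurve b b = famW b 1 := by
    ext <;> simp [FA.Thirteen.tateCurve, famW]
  obtain ⟨Q, hQ25, h0', hQ5⟩ : ∃ Q : (famW b (1 : ℚ)).toAffine.Point, addOrderOf Q = 25 ∧
      ∃ h0' : (famW b (1 : ℚ)).toAffine.Nonsingular 0 0, 5 • Q = .some 0 0 h0' := by
    rw [← hfam]
    refine ⟨e.symm P, by rw [AddEquiv.addOrderOf_eq, hP], h0, ?_⟩
    rw [← map_nsmul, ← he, AddEquiv.symm_apply_apply]
  rcases Q with _ | ⟨x, y, h⟩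
  · rw [show (Affine.Point.zero : (famW b (1 : ℚ)).toAffine.Point) = 0 from rfl,
      addOrderOf_zero] at hQ25
    norm_num at hQ25
  obtain ⟨D, -, -, hx2, hx4, -, -⟩ := exists_chain hQ25 hQ5
  have hu : b = D.U ^ 5 := by rw [D.U_pow hb one_ne_zero hx2 hx4]; ring
  set u := D.U
  have hu0 : u ≠ 0 := fun e => hb (by rw [hu, e, zero_pow]; norm_num)
  have hden : ((u.den : ℤ) : ℚ) ≠ 0 := by exact_mod_cast u.den_nz
  have hd5 : ((u.den : ℤ) : ℚ) ^ 5 ≠ 0 := pow_ne_zero 5 hden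
  set Cv : VariableChange ℚ := ⟨Units.mk0 _ (inv_ne_zero hd5), 0, 0, 0⟩
  have hb' : b * ((u.den : ℤ) : ℚ) ^ 5 = (u.num : ℚ) ^ 5 := by
    rw [hu, ← mul_pow]; congr 1; exact_mod_cast Rat.mul_den_eq_num u
  have hC : Cv • famW b (1 : ℚ) = famW ((u.num : ℚ) ^ 5) (((u.den : ℤ) : ℚ) ^ 5) := by
    ext <;> simp only [Cv, variableChange_a₁, variableChange_a₂, variableChange_a₃,
      variableChange_a₄, variableChange_a₆, famW, Units.val_inv_eq_inv_val, Units.val_mk0, inv_inv,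
      ← hb'] <;> ring
  have hE' : (famW b (1 : ℚ)).IsElliptic := hfam ▸ hE
  have hE'' : (famW ((u.num : ℚ) ^ 5) (((u.den : ℤ) : ℚ) ^ 5)).IsElliptic := by
    refine ⟨?_⟩
    rw [← hC, WeierstrassCurve.variableChange_Δ]
    exact ((Units.isUnit _).pow _).mul (famW b (1 : ℚ)).isUnit_Δ
  refine ⟨u.num, u.den, Int.isCoprime_iff_nat_coprime.mpr (by simpa using u.reduced),
    Rat.num_ne_zero.mpr hu0, by exact_mod_cast u.den_nz, ?_, ?_⟩
  · intro hH
    have hd := (famW ((u.num : ℚ) ^ 5) (((u.den : ℤ) : ℚ) ^ 5)).isUnit_Δ.ne_zero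
    apply hd
    have hH' : ((formH u.num u.den : ℤ) : ℚ) = 0 := by rw [hH]; simp
    simp only [formH, Int.cast_sub, Int.cast_mul, Int.cast_pow, Int.cast_ofNat] at hH'
    simp only [famW, WeierstrassCurve.Δ, WeierstrassCurve.b₂, WeierstrassCurve.b₄,
      WeierstrassCurve.b₆, WeierstrassCurve.b₈]
    linear_combination ((u.num : ℚ) ^ 5) ^ 5 * (((u.den : ℤ) : ℚ) ^ 5) ^ 5 * hH'
  · set e' := (vcEquiv Cv hC).symm
    have hor : ∃ h00, e' (.some 0 0 h0') = Affine.Point.some 0 0 h00 := by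
      rcases hz : e' (Affine.Point.some 0 0 h0') with _ | ⟨x', y', h'⟩
      · exact absurd (e'.map_eq_zero_iff.mp hz) (Affine.Point.some_ne_zero _)
      · have := congrArg (vcEquiv Cv hC) hz
        rw [AddEquiv.apply_symm_apply, vcEquiv_some, Affine.Point.some.injEq] at this
        simp only [vcX, vcY, Cv, Units.val_mk0, zero_mul, add_zero] at this
        obtain ⟨h1, h2⟩ := this
        obtain rfl : x' = 0 := by simpa [hd5, hden] using h1.symm
        obtain rfl : y' = 0 := by simpa [hd5, hden] using h2.symm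
        exact ⟨h', rfl⟩
    obtain ⟨h00, hor⟩ := hor
    rcases hz : e' (Affine.Point.some x y h) with _ | ⟨x', y', h'⟩
    · exact absurd (e'.map_eq_zero_iff.mp hz) (Affine.Point.some_ne_zero _)
    exact ⟨h00, x', y', h', by rw [← hz, AddEquiv.addOrderOf_eq, hQ25],
      by rw [← hz, ← map_nsmul, hQ5, hor]⟩

end FA.TwentyFive

end
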