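import Fermat.Agent.TwentyFive.Reduce
import Mathlib.NumberTheory.Padics.RingHoms
import Mathlib.NumberTheory.Padics.PadicNumbers

/-!
# The parameter has `5 ∣ a c`

Otherwise every chain modulo `5` starts at the cusp of an additive fibre, whose discriminant has
exact exponent `3`; there the tangent slope would satisfy `5 ∣ 2`.
-/

set_option autoImplicit false
set_option linter.unusedSectionVars false

noncomputable section

open WeierstrassCurve FA.Local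

namespace FA.TwentyFive

/-- The abscissa of the double of a point of slope `l`. -/
abbrev tanX (A C x l : ZMod 5) : ZMod 5 := l ^ 2 + (C - A) * l + A * C - 2 * x

/-- The ordinate of the double. -/
abbrev tanY (A C x y l : ZMod 5) : ZMod 5 :=
  -(l * tanX A C x l + (y - l * x)) - (C - A) * tanX A C x l + A * C ^ 2

/-- The line of slope `l` is tangent. -/
abbrev TanOk (A C x y l : ZMod 5) : Prop :=
  tanX A C x l ≠ 0 ∧ x * x + x * tanX A C x l + x * tanX A C x l =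
    -(2 * l * (y - l * x) + (C - A) * (y - l * x) - A * C ^ 2 * l)

set_option synthInstance.maxSize 2000 in
set_option synthInstance.maxHeartbeats 200000 in
/-- All chains modulo `5` start at the cusp. -/
theorem chain_zmod_five : ∀ A : ZMod 5, A ≠ 0 → ∀ C : ZMod 5, C ≠ 0 → ∀ x y : ZMod 5,
    y ^ 2 + (C - A) * x * y - A * C ^ 2 * y = x ^ 3 - A * C * x ^ 2 →
    ∀ l2 : ZMod 5, TanOk A C x y l2 → ∀ l4 : ZMod 5,
    TanOk A C (tanX A C x l2) (tanY A C x y l2) l4 → ∀ l : ZMod 5,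
    y = l * x + A * C ^ 2 →
    tanY A C (tanX A C x l2) (tanY A C x y l2) l4 =
      l * tanX A C (tanX A C x l2) l4 + A * C ^ 2 →
    x + tanX A C (tanX A C x l2) l4 = l ^ 2 + (C - A) * l + A * C →
    A = 3 * C ∧ x = -C ^ 2 ∧ y = -2 * C ^ 3 ∧ l2 = C := by
  decide +kernel

/-- The conclusion of `chain_zmod_five` for a chain. -/
theorem Chain.zmod_five {A C : ZMod 5} (D : Chain A C) (hA : A ≠ 0) (hC : C ≠ 0) (h2 : D.x2 ≠ 0)
    (h4 : D.x4 ≠ 0) : A = 3 * C ∧ D.x1 = -C ^ 2 ∧ D.y1 = -2 * C ^ 3 ∧ D.l2 = C := by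
  have e2 : D.x2 = tanX A C D.x1 D.l2 := by simp only [tanX]; linear_combination D.line2.e1
  have f2 : D.y2 = tanY A C D.x1 D.y1 D.l2 := by
    have := D.on2'
    simp only [negF] at this
    simp only [tanY, ← e2]
    linear_combination -this + D.on2
  have e4 : D.x4 = tanX A C D.x2 D.l4 := by simp only [tanX]; linear_combination D.line4.e1
  have f4 : D.y4 = tanY A C D.x2 D.y2 D.l4 := by
    have := D.on4'
    simp only [negF] at this
    simp only [tanY, ← e4]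
    linear_combination -this + D.on4
  refine chain_zmod_five A hA C hC D.x1 D.y1 D.eq1 D.l2 ⟨e2 ▸ h2, ?_⟩ D.l4 ?_ D.l D.on1 ?_ ?_
  · rw [← e2, D.line2.e2]; linear_combination (2 * D.l2 + C - A) * D.on2
  · rw [← e2, ← f2]
    refine ⟨e4 ▸ h4, ?_⟩
    rw [← e4, D.line4.e2]; linear_combination (2 * D.l4 + C - A) * D.on4
  · rw [← e2, ← f2, ← f4, ← e4]; exact D.on4''
  · rw [← e2, ← e4]; linear_combination D.line.e1

local instance factPrimeFive : Fact (Nat.Prime 5) := ⟨Nat.prime_five⟩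

local notation "v5" => Rat.padicValuation 5

theorem norm_le_one_five (z : (v5).valuationSubring) : ‖((z : ℚ) : ℚ_[5])‖ ≤ 1 :=
  Padic.norm_rat_le_one (Rat.padicValuation_le_one_iff.mp z.2)

/-- Integral rationals into the `5`-adic integers. -/
def toPadicInt : (v5).valuationSubring →+* ℤ_[5] where
  toFun z := ⟨((z : ℚ) : ℚ_[5]), norm_le_one_five z⟩
  map_one' := Subtype.ext Rat.cast_one
  map_mul' x y := Subtype.ext (Rat.cast_mul (x : ℚ) (y : ℚ))
  map_zero' := Subtype.ext Rat.cast_zero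
  map_add' x y := Subtype.ext (Rat.cast_add (x : ℚ) (y : ℚ))

theorem exists_div_five {z : ℚ} (h : v5 z < 1) : ∃ w : ℚ, v5 w ≤ 1 ∧ z = 5 * w := by
  refine ⟨z / 5, ?_, by ring⟩
  rcases eq_or_ne z 0 with rfl | hz
  · simp
  have e : v5 z = WithZero.exp (-padicValRat 5 z) := by simp [Rat.padicValuation, hz]
  rw [e, ← WithZero.exp_zero, WithZero.exp_lt_exp] at h
  rw [map_div₀, e, show (5 : ℚ) = ((5 : ℕ) : ℚ) by norm_num, Rat.padicValuation_self,
    div_le_one₀ WithZero.exp_pos, WithZero.exp_le_exp]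
  omega

instance isLocalHom_toZMod_five : IsLocalHom (PadicInt.toZMod.comp toPadicInt) where
  map_nonunit z hz := by
    by_contra hnu
    have h1 : v5 (z : ℚ) < 1 := (red_eq_zero_iff v5 (z := (z : ℚ)) z.2).mp
      ((IsLocalRing.residue_eq_zero_iff _).mpr ((IsLocalRing.mem_maximalIdeal _).mpr hnu))
    obtain ⟨w, hw, e⟩ := exists_div_five h1
    let w' : (v5).valuationSubring := ⟨w, hw⟩
    have e' : z = 5 * w' := Subtype.ext (by
      show (z : ℚ) = (v5).valuationSubring.subtype (5 * w')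
      rw [map_mul, map_ofNat]
      exact e)
    rw [e', map_mul, map_ofNat, show (5 : ZMod 5) = 0 from rfl, zero_mul] at hz
    exact not_isUnit_zero hz

/-- The residue field into `ZMod 5`. -/
def toF5 : IsLocalRing.ResidueField (v5).valuationSubring →+* ZMod 5 :=
  IsLocalRing.ResidueField.lift (PadicInt.toZMod.comp toPadicInt)

theorem toF5_intCast (n : ℤ) (hn : v5 (n : ℚ) ≤ 1) :
    toF5 (red v5 (n : ℚ) hn) = (n : ZMod 5) := by
  have e : toPadicInt ⟨(n : ℚ), hn⟩ = (n : ℤ_[5]) := Subtype.ext (by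
    show ((n : ℚ) : ℚ_[5]) = ((n : ℤ_[5]) : ℚ_[5])
    simp)
  show PadicInt.toZMod (toPadicInt ⟨(n : ℚ), hn⟩) = _
  rw [e, map_intCast]

/-- Congruences modulo `5`. -/
theorem exists_five_mul {z : ℚ} {n : ℤ} (hz : v5 z ≤ 1)
    (h : toF5 (red v5 z hz) = (n : ZMod 5)) : ∃ w : ℚ, v5 w ≤ 1 ∧ z = n + 5 * w := by
  have hn : v5 (n : ℚ) ≤ 1 := intCast_le_one n
  have hd : v5 (z - n) ≤ 1 := (v5).map_sub_le hz hn
  have h0 : red v5 (z - n) hd = 0 := by
    refine toF5.injective ?_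
    rw [map_zero, show red v5 (z - n) hd = red v5 z hz - red v5 (n : ℚ) hn from
      map_sub (IsLocalRing.residue _) (⟨z, hz⟩ : (v5).valuationSubring) ⟨(n : ℚ), hn⟩, map_sub, h,
      toF5_intCast, sub_self]
  obtain ⟨w, hw, e⟩ := exists_div_five ((red_eq_zero_iff v5 hd).mp h0)
  exact ⟨w, hw, by linear_combination e⟩

/-- The tangent at a point above the cusp. -/
theorem false_of_tangent {Cq Jq X Y L x₂ n : ℚ} (hC : v5 Cq = 1) (hJ : v5 Jq ≤ 1) (hX : v5 X ≤ 1)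
    (hY : v5 Y ≤ 1) (hL : v5 L ≤ 1)
    (q1 : (-Cq ^ 2 + 5 * X) + (-Cq ^ 2 + 5 * X) + x₂ =
      (Cq + 5 * L) ^ 2 + (Cq - (18 * Cq + 25 * Jq)) * (Cq + 5 * L) + (18 * Cq + 25 * Jq) * Cq)
    (q2 : (-Cq ^ 2 + 5 * X) * (-Cq ^ 2 + 5 * X) + (-Cq ^ 2 + 5 * X) * x₂ +
      (-Cq ^ 2 + 5 * X) * x₂ = -(2 * (Cq + 5 * L) * n + (Cq - (18 * Cq + 25 * Jq)) * n -
        (18 * Cq + 25 * Jq) * Cq ^ 2 * (Cq + 5 * L)))
    (o2 : -2 * Cq ^ 3 + 5 * Y = (Cq + 5 * L) * (-Cq ^ 2 + 5 * X) + n) : False := by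
  set R : ℚ := -5 * Cq ^ 2 * X + 3 * X ^ 2 - 5 * Cq * Jq * X + 3 * Cq * Y + 5 * Jq * Y +
    Cq ^ 3 * L - 2 * L * Y + 17 * Cq * L * X + 25 * Jq * L * X with hR
  have tangent : 10 * Cq ^ 4 + 25 * R = 0 := by
    rw [hR]
    linear_combination (2 * (-Cq ^ 2 + 5 * X)) * q1 - q2 -
      (2 * (Cq + 5 * L) + (Cq - (18 * Cq + 25 * Jq))) * o2
  have h5 : v5 (5 : ℚ) < 1 := by
    rw [show (5 : ℚ) = ((5 : ℤ) : ℚ) by norm_num, Rat.padicValuation_cast,
      Int.padicValuation_lt_one_iff]; norm_num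
  have hC' : v5 Cq ≤ 1 := hC.le
  have hRle : v5 R ≤ 1 := by
    have m := fun {p q : ℚ} (hp : v5 p ≤ 1) (hq : v5 q ≤ 1) => map_mul_le_one (v := v5) hp hq
    have w := fun {p : ℚ} (hp : v5 p ≤ 1) (n : ℕ) => map_pow_le_one (v := v5) hp n
    have k : ∀ n : ℕ, v5 (n : ℚ) ≤ 1 := natCast_le_one
    rw [hR]
    refine (v5).map_add_le ((v5).map_add_le ((v5).map_sub_le ((v5).map_add_le ((v5).map_add_le
      ((v5).map_add_le ((v5).map_sub_le ((v5).map_add_le ?_ ?_) ?_) ?_) ?_) ?_) ?_) ?_) ?_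
    · exact m (m (by rw [(v5).map_neg]; exact k 5) (w hC' 2)) hX
    · exact m (k 3) (w hX 2)
    · exact m (m (m (k 5) hC') hJ) hX
    · exact m (m (k 3) hC') hY
    · exact m (m (k 5) hJ) hY
    · exact m (w hC' 3) hL
    · exact m (m (k 2) hL) hY
    · exact m (m (m (k 17) hC') hL) hX
    · exact m (m (m (k 25) hJ) hL) hX
  have hlt : v5 (2 * Cq ^ 4) < 1 := by
    rw [show 2 * Cq ^ 4 = -(5 * R) by linarith [tangent], (v5).map_neg]
    exact map_mul_lt_one' h5 hRle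
  rw [map_mul, map_pow, hC, one_pow, mul_one, show (2 : ℚ) = ((2 : ℤ) : ℚ) by norm_num,
    Rat.padicValuation_cast, Int.padicValuation_lt_one_iff] at hlt
  norm_num at hlt


/-- **`5` divides `a c`.** -/
theorem five_dvd_mul {a c : ℤ}
    {h0 : (famW ((a : ℚ) ^ 5) ((c : ℚ) ^ 5)).toAffine.Nonsingular 0 0} {x y : ℚ}
    {h : (famW ((a : ℚ) ^ 5) ((c : ℚ) ^ 5)).toAffine.Nonsingular x y}
    (hP : addOrderOf (Affine.Point.some x y h :
      (famW ((a : ℚ) ^ 5) ((c : ℚ) ^ 5)).toAffine.Point) = 25)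
    (hT : 5 • (Affine.Point.some x y h : (famW ((a : ℚ) ^ 5) ((c : ℚ) ^ 5)).toAffine.Point) =
      .some 0 0 h0) : (5 : ℤ) ∣ a * c := by
  by_contra hac
  have ha : ¬ (5 : ℤ) ∣ a := fun hd => hac (hd.mul_right c)
  have hc : ¬ (5 : ℤ) ∣ c := fun hd => hac (hd.mul_left a)
  have unit : ∀ n : ℤ, ¬ (5 : ℤ) ∣ n → v5 ((n : ℚ) ^ 5) = 1 := fun n hn => by
    rw [map_pow, Rat.padicValuation_cast, Int.padicValuation_eq_one_iff.mpr (by exact_mod_cast hn),
      one_pow]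
  have hA := unit a ha
  have hC := unit c hc
  obtain ⟨D, -, -, -, -, hD⟩ := exists_integral_chain hA hC hP hT
  set E := (D.reduce hA.le hC.le hD).map toF5
  have nz := D.reduce_x_ne_zero hA.le hC.le hD
  have cast5 : ∀ (n : ℤ) (hn : v5 ((n : ℚ) ^ 5) ≤ 1),
      toF5 (red v5 ((n : ℚ) ^ 5) hn) = (n : ZMod 5) := by
    intro n hn
    have e := toF5_intCast (n ^ 5) (by rw [Int.cast_pow]; exact hn)
    simp only [Int.cast_pow, ZMod.pow_card] at e
    exact e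
  have nz5 : ∀ n : ℤ, ¬ (5 : ℤ) ∣ n → (n : ZMod 5) ≠ 0 := fun n hn e =>
    hn ((ZMod.intCast_zmod_eq_zero_iff_dvd n 5).mp e)
  obtain ⟨k1, k2, k3, k4⟩ := E.zmod_five (by rw [cast5]; exact nz5 a ha)
    (by rw [cast5]; exact nz5 c hc) ((map_ne_zero toF5).mpr nz.1) ((map_ne_zero toF5).mpr nz.2)
  rw [cast5, cast5] at k1
  have hc5 : ((c ^ 5 : ℤ) : ZMod 5) = (c : ZMod 5) := by rw [Int.cast_pow, ZMod.pow_card]
  obtain ⟨X, hX, eX⟩ := exists_five_mul (n := -(c ^ 5) ^ 2) hD.hx1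
    (k2.trans (by rw [cast5, Int.cast_neg, Int.cast_pow, hc5]))
  obtain ⟨Y, hY, eY⟩ := exists_five_mul (n := -2 * (c ^ 5) ^ 3) hD.hy1
    (k3.trans (by rw [cast5, Int.cast_mul, Int.cast_neg, Int.cast_ofNat, Int.cast_pow, hc5]))
  obtain ⟨L, hL, eL⟩ := exists_five_mul (n := c ^ 5) hD.hl2 (k4.trans (by rw [cast5, hc5]))
  obtain ⟨j, hj⟩ : ∃ j : ℤ, a = 3 * c + 5 * j := by
    have : ((a - 3 * c : ℤ) : ZMod 5) = 0 := by push_cast; rw [k1]; ring
    obtain ⟨j, hj⟩ := (ZMod.intCast_zmod_eq_zero_iff_dvd _ 5).mp this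
    exact ⟨j, by push_cast at hj; linarith⟩
  obtain ⟨J, hJ⟩ : ∃ J : ℤ, a ^ 5 = 18 * c ^ 5 + 25 * J :=
    ⟨9 * c ^ 5 + 81 * c ^ 4 * j + 270 * c ^ 3 * j ^ 2 + 450 * c ^ 2 * j ^ 3 + 375 * c * j ^ 4 +
      125 * j ^ 5, by rw [hj]; ring⟩
  have hJq : (a : ℚ) ^ 5 = 18 * (c : ℚ) ^ 5 + 25 * (J : ℚ) := by exact_mod_cast hJ
  push_cast at eX eY eL
  refine false_of_tangent (Cq := (c : ℚ) ^ 5) (Jq := (J : ℚ)) (x₂ := D.x2) (n := D.n2) hC
    (intCast_le_one J) hX hY hL ?_ ?_ ?_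
  · rw [← eX, ← eL, ← hJq]; exact D.line2.e1
  · rw [← eX, ← eL, ← hJq]; exact D.line2.e2
  · rw [← eX, ← eL, ← eY]; exact D.on2

end FA.TwentyFive

end
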