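import Fermat.Agent.TwentyFive.Defs
import Mathlib.NumberTheory.Padics.PadicVal.Basic
import Mathlib.RingTheory.Int.Basic
import Mathlib.Tactic.LinearCombination

/-!
# The valuations of the quartic factor

Outside `5` the quartic factor of `a¹⁰ - 11 a⁵ c⁵ - c¹⁰` is prime to the other factors.
-/

set_option autoImplicit false

namespace FA.TwentyFive

theorem formH_swap (a c : ℤ) : formH c (-a) = -formH a c := by
  simp only [formH]; ring

/-- If the discriminant has exponents divisible by `5` off `a² - a c - c²`, so has the quartic. -/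
theorem five_dvd_padicValInt_formQ {a c : ℤ} (hac : IsCoprime a c) (h5 : (5 : ℤ) ∣ c)
    (hH : formH a c ≠ 0)
    (hloc : ∀ l : ℕ, l.Prime → l ≠ 5 → ¬ (l : ℤ) ∣ a * c → ¬ (l : ℤ) ∣ a ^ 2 - a * c - c ^ 2 →
      (l : ℤ) ∣ formH a c → 5 ∣ padicValInt l (formH a c))
    (l : ℕ) (hl : l.Prime) : 5 ∣ padicValInt l (formQ a c) := by
  by_cases hd : (l : ℤ) ∣ formQ a c
  swap
  · simp [padicValInt.eq_zero_of_not_dvd hd]
  have hp : Prime (l : ℤ) := Nat.prime_iff_prime_int.mp hl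
  have hQR := formH_eq_mul a c
  have hc : ¬ (l : ℤ) ∣ c := fun h => by
    have e : (l : ℤ) ∣ a ^ 4 := by
      have e' : a ^ 4 = formQ a c -
          c * (-2 * a ^ 3 + 4 * a ^ 2 * c - 3 * a * c ^ 2 + c ^ 3) := by
        simp only [formQ]; ring
      rw [e']; exact dvd_sub hd (h.mul_right _)
    exact hp.not_isUnit (hac.isUnit_of_dvd' (hp.dvd_of_dvd_pow e) h)
  have ha : ¬ (l : ℤ) ∣ a := fun h => by
    have e : (l : ℤ) ∣ c ^ 4 := by
      have e' : c ^ 4 = formQ a c -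
          a * (a ^ 3 - 2 * a ^ 2 * c + 4 * a * c ^ 2 - 3 * c ^ 3) := by
        simp only [formQ]; ring
      rw [e']; exact dvd_sub hd (h.mul_right _)
    exact hc (hp.dvd_of_dvd_pow e)
  have hl5 : l ≠ 5 := fun e => hc (e ▸ h5)
  have h5' : ¬ (l : ℤ) ∣ 5 := fun h => hl5
    ((Nat.prime_dvd_prime_iff_eq hl Nat.prime_five).mp (Int.natCast_dvd_natCast.mp h))
  have hc4 : ∀ k : ℕ, ¬ (l : ℤ) ∣ 5 * c ^ k := fun k h => by
    rcases hp.dvd_or_dvd h with h | h
    · exact h5' h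
    · exact hc (hp.dvd_of_dvd_pow h)
  have hX : ¬ (l : ℤ) ∣ a ^ 2 - a * c - c ^ 2 := fun h => hc4 4 (by
    have e : 5 * c ^ 4 = formQ a c - (a ^ 2 - a * c - c ^ 2) * (a ^ 2 - a * c + 4 * c ^ 2) := by
      simp only [formQ]; ring
    rw [e]; exact dvd_sub hd (h.mul_right _))
  have hS : ¬ (l : ℤ) ∣ a ^ 2 + c ^ 2 := fun h => by
    have h1 : (l : ℤ) ∣ c ^ 3 * (a + 2 * c) := by
      have e : c ^ 3 * (a + 2 * c) = (a ^ 2 + c ^ 2) * (a ^ 2 - 2 * a * c + 3 * c ^ 2) -
          formQ a c := by simp only [formQ]; ring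
      rw [e]; exact dvd_sub (h.mul_right _) hd
    have h2 := (hp.dvd_or_dvd h1).resolve_left fun h => hc (hp.dvd_of_dvd_pow h)
    refine hc4 2 ?_
    rw [show 5 * c ^ 2 = (a ^ 2 + c ^ 2) - (a + 2 * c) * (a - 2 * c) by ring]
    exact dvd_sub h (h2.mul_right _)
  have hR : ¬ (l : ℤ) ∣ formR a c := fun h => by
    rcases hp.dvd_or_dvd h with h | h
    · exact hX h
    · have e : (l : ℤ) ∣ 5 * (a * c * (a ^ 2 + c ^ 2)) := by
        have e' : 5 * (a * c * (a ^ 2 + c ^ 2)) =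
            (a ^ 4 + 3 * a ^ 3 * c + 4 * a ^ 2 * c ^ 2 + 2 * a * c ^ 3 + c ^ 4) - formQ a c := by
          simp only [formQ]; ring
        rw [e']; exact dvd_sub h hd
      rcases hp.dvd_or_dvd ((hp.dvd_or_dvd e).resolve_left h5') with e | e
      · rcases hp.dvd_or_dvd e with e | e
        · exact ha e
        · exact hc e
      · exact hS e
  have := Fact.mk hl
  have hne := hH
  rw [hQR] at hne
  have hv := hloc l hl hl5 (fun h => (hp.dvd_or_dvd h).elim ha hc) hX
    (by rw [hQR]; exact hd.mul_right _)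
  rwa [hQR, padicValInt.mul (left_ne_zero_of_mul hne) (right_ne_zero_of_mul hne),
    padicValInt.eq_zero_of_not_dvd hR, add_zero] at hv

end FA.TwentyFive
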