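import Fermat.Agent.TwentyFive.Family
import Mathlib.Tactic.LinearCombination
import Mathlib.Tactic.FieldSimp

/-!
# The chain on the nodal curve

Over a field with `φ² = φ + 1` and `A = φ⁵ C` the curve has the node `(X₀, Y₀)` with
`X₀ = -φ⁴ C²`. There `f` is the fifth power of `h = (y - (2φ+1) C x) / (x - X₀)`, which multiplies
along lines; so a chain avoiding the node has fifth root `φ C`.
-/

set_option autoImplicit false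
set_option linter.unusedSectionVars false

noncomputable section

open WeierstrassCurve

namespace FA.TwentyFive

variable {k : Type*} [Field k] {φ A C : k}

/-- The abscissa of the node. -/
def nodeX (φ C : k) : k := -(φ ^ 4 * C ^ 2)

/-- The ordinate of the node. -/
def nodeY (φ C : k) : k := (2 * φ + 1) * C * nodeX φ C

theorem nodeX_ne_zero (hφ : φ ^ 2 = φ + 1) (hC : C ≠ 0) : nodeX φ C ≠ 0 := by
  have hφ0 : φ ≠ 0 := fun e => by rw [e] at hφ; simp at hφ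
  simp [nodeX, hφ0, hC]

theorem node_eq (hφ : φ ^ 2 = φ + 1) (hA : A = φ ^ 5 * C) :
    famEq A C (nodeX φ C) (nodeY φ C) := by
  subst hA
  simp only [famEq, nodeY, nodeX]
  linear_combination ((-2) * C ^ 6 * φ ^ 12 + (-2) * C ^ 6 * φ ^ 11 + (-3) * C ^ 6 * φ ^ 10 + (-5) * C ^ 6 * φ ^ 9 + (-2) * C ^ 6 * φ ^ 8) * hφ

theorem node_fy (hφ : φ ^ 2 = φ + 1) (hA : A = φ ^ 5 * C) :
    2 * nodeY φ C + (C - A) * nodeX φ C - A * C ^ 2 = 0 := by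
  subst hA
  simp only [nodeY, nodeX]
  linear_combination ((1) * C ^ 3 * φ ^ 7 + (1) * C ^ 3 * φ ^ 6 + (2) * C ^ 3 * φ ^ 5 + (3) * C ^ 3 * φ ^ 4) * hφ

theorem node_fx (hφ : φ ^ 2 = φ + 1) (hA : A = φ ^ 5 * C) :
    3 * nodeX φ C ^ 2 - 2 * A * C * nodeX φ C - (C - A) * nodeY φ C = 0 := by
  subst hA
  simp only [nodeY, nodeX]
  linear_combination ((-2) * C ^ 4 * φ ^ 8 + (-1) * C ^ 4 * φ ^ 7 + (-1) * C ^ 4 * φ ^ 5 + (-1) * C ^ 4 * φ ^ 4) * hφ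

/-- The only point above the node. -/
theorem eq_nodeY (hφ : φ ^ 2 = φ + 1) (hA : A = φ ^ 5 * C) {y : k}
    (h : famEq A C (nodeX φ C) y) : y = nodeY φ C := by
  have h0 := node_eq hφ hA
  simp only [famEq] at h h0
  have e : (y - nodeY φ C) ^ 2 = 0 := by
    linear_combination h - h0 - (y - nodeY φ C) * node_fy hφ hA
  exact sub_eq_zero.mp (pow_eq_zero_iff two_ne_zero |>.mp e)

/-- A line through the node meets the curve twice there. -/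
theorem IsLine.node {x₁ x₂ x₃ l n : k} (hφ : φ ^ 2 = φ + 1) (hA : A = φ ^ 5 * C)
    (L : IsLine A C x₁ x₂ x₃ l n) (h1 : x₁ = nodeX φ C) (hy : famEq A C x₁ (l * x₁ + n)) :
    x₂ = nodeX φ C ∨ x₃ = nodeX φ C := by
  subst h1
  have hn : n = nodeY φ C - l * nodeX φ C := by linear_combination eq_nodeY hφ hA hy
  subst hn
  have e : (nodeX φ C - x₂) * (nodeX φ C - x₃) = 0 := by
    linear_combination (-2 * nodeX φ C) * L.e1 + L.e2 + node_fx hφ hA - l * node_fy hφ hA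
  rcases mul_eq_zero.mp e with e | e
  · exact Or.inl (sub_eq_zero.mp e).symm
  · exact Or.inr (sub_eq_zero.mp e).symm

theorem IsLine.swap {x₁ x₂ x₃ l n : k} (L : IsLine A C x₁ x₂ x₃ l n) :
    IsLine A C x₂ x₁ x₃ l n :=
  ⟨by linear_combination L.e1, by linear_combination L.e2, by linear_combination L.e3⟩

theorem IsLine.rot {x₁ x₂ x₃ l n : k} (L : IsLine A C x₁ x₂ x₃ l n) :
    IsLine A C x₃ x₁ x₂ l n :=
  ⟨by linear_combination L.e1, by linear_combination L.e2, by linear_combination L.e3⟩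

theorem famEq_negF {x y : k} (h : famEq A C x y) : famEq A C x (negF A C x y) := by
  simp only [famEq, negF] at h ⊢
  linear_combination h

/-- The function `h`. -/
def hF (φ C x y : k) : k := (y - (2 * φ + 1) * C * x) / (x - nodeX φ C)

theorem IsLine.prod_hF {x₁ x₂ x₃ l n : k} (hφ : φ ^ 2 = φ + 1) (hA : A = φ ^ 5 * C)
    (L : IsLine A C x₁ x₂ x₃ l n) (g1 : x₁ ≠ nodeX φ C) (g2 : x₂ ≠ nodeX φ C)
    (g3 : x₃ ≠ nodeX φ C) :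
    hF φ C x₁ (l * x₁ + n) * hF φ C x₂ (l * x₂ + n) * hF φ C x₃ (l * x₃ + n) = n := by
  simp only [hF, div_mul_div_comm]
  rw [div_eq_iff (mul_ne_zero (mul_ne_zero (sub_ne_zero.mpr g1) (sub_ne_zero.mpr g2))
    (sub_ne_zero.mpr g3))]
  obtain ⟨e1, e2, e3⟩ := L
  subst hA
  simp only [nodeX]
  linear_combination
    ((l - (2 * φ + 1) * C) ^ 3 - n) * e3 + ((l - (2 * φ + 1) * C) ^ 2 * n - n * (φ ^ 4 * C ^ 2)) * e2 +
      ((l - (2 * φ + 1) * C) * n ^ 2 - n * (φ ^ 4 * C ^ 2) ^ 2) * e1 + ((1) * C ^ 5 * l * n * φ ^ 11 + (-1) * C ^ 6 * n * φ ^ 11 + (-2) * C ^ 6 * n * φ ^ 10 + (1) * C ^ 5 * l * n * φ ^ 10 + (2) * C ^ 5 * l * n * φ ^ 9 + (-3) * C ^ 6 * n * φ ^ 9 + (-5) * C ^ 6 * n * φ ^ 8 + (3) * C ^ 5 * l * n * φ ^ 8 + (-1) * C ^ 3 * n ^ 2 * φ ^ 7 + (4) * C ^ 5 * l * n * φ ^ 7 + (-8) * C ^ 6 * n * φ ^ 7 + (-5) * C ^ 6 * n * φ ^ 6 + (-1) * C ^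 4 * l ^ 2 * n * φ ^ 6 + (6) * C ^ 5 * l * n * φ ^ 6 + (-1) * C ^ 3 * n ^ 2 * φ ^ 6 + (2) * C ^ 5 * l * n * φ ^ 5 + (-1) * C ^ 6 * n * φ ^ 5 + (2) * C ^ 3 * n ^ 2 * φ ^ 5 + (-1) * C ^ 4 * l ^ 2 * n * φ ^ 5 + (-2) * C ^ 2 * l * n ^ 2 * φ ^ 4 + (3) * C ^ 3 * n ^ 2 * φ ^ 4 + (6) * C ^ 3 * n ^ 2 * φ ^ 3 + (-2) * C ^ 2 * l * n ^ 2 * φ ^ 3 + (10) * C ^ 3 * n ^ 2 * φ ^ 2 + (-2) * C ^ 2 * l * n ^ 2 * φ ^ 2 + (8) * C ^ 3 * n ^ 2 * φ + (-4) * C ^ 2 * l * n ^ 2 * φ + (-2) * C ^ 2 * l * n ^ 2 + (2) * C ^ 3 * n ^ 2) * hφ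

theorem hF_mul_neg {x y : k} (hφ : φ ^ 2 = φ + 1) (hA : A = φ ^ 5 * C) (h : famEq A C x y)
    (g : x ≠ nodeX φ C) : hF φ C x y * hF φ C x (negF A C x y) = -x := by
  simp only [hF, div_mul_div_comm]
  rw [div_eq_iff (mul_ne_zero (sub_ne_zero.mpr g) (sub_ne_zero.mpr g))]
  simp only [famEq] at h
  subst hA
  simp only [negF, nodeX]
  linear_combination (-1 : k) * h + ((1) * C ^ 4 * x * φ ^ 6 + (1) * C ^ 4 * x * φ ^ 5 + (-2) * C ^ 2 * x ^ 2 * φ ^ 4 + (-2) * C ^ 2 * x ^ 2 * φ ^ 3 + (-2) * C ^ 2 * x ^ 2 * φ ^ 2 + (-4) * C ^ 2 * x ^ 2 * φ + (-2) * C ^ 2 * x ^ 2) * hφ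

theorem fF_eq_pow {x y : k} (hφ : φ ^ 2 = φ + 1) (hA : A = φ ^ 5 * C) (h : famEq A C x y)
    (g : x ≠ nodeX φ C) : fF C x y = hF φ C x y ^ 5 := by
  obtain ⟨s, hy⟩ : ∃ s, y = nodeY φ C + s * (x - nodeX φ C) :=
    ⟨(y - nodeY φ C) / (x - nodeX φ C),
      by rw [div_mul_cancel₀ _ (sub_ne_zero.mpr g)]; ring⟩
  have hh : hF φ C x y = s - (2 * φ + 1) * C := by
    rw [hF, div_eq_iff (sub_ne_zero.mpr g), hy, nodeY]; ring
  have hx : x = s ^ 2 + (C - A) * s + A * C - 2 * nodeX φ C := by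
    have h0 := node_eq hφ hA
    simp only [famEq] at h h0
    subst hy
    have e : (x - nodeX φ C) ^ 2 * (x - (s ^ 2 + (C - A) * s + A * C - 2 * nodeX φ C)) = 0 := by
      linear_combination -h + h0 + s * (x - nodeX φ C) * node_fy hφ hA -
        (x - nodeX φ C) * node_fx hφ hA
    rcases mul_eq_zero.mp e with e | e
    · exact absurd (pow_eq_zero_iff two_ne_zero |>.mp e) (sub_ne_zero.mpr g)
    · exact sub_eq_zero.mp e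
  rw [hh, hy, hx]
  subst hA
  simp only [fF, nodeY, nodeX]
  linear_combination ((5) * C ^ 4 * s * φ ^ 8 + (1) * C ^ 2 * s ^ 3 * φ ^ 8 + (-3) * C ^ 3 * s ^ 2 * φ ^ 8 + (-3) * C ^ 5 * φ ^ 8 + (15) * C ^ 4 * s * φ ^ 7 + (-8) * C ^ 3 * s ^ 2 * φ ^ 7 + (-12) * C ^ 5 * φ ^ 7 + (1) * C ^ 2 * s ^ 3 * φ ^ 7 + (-21) * C ^ 5 * φ ^ 6 + (26) * C ^ 4 * s * φ ^ 6 + (2) * C ^ 2 * s ^ 3 * φ ^ 6 + (-11) * C ^ 3 * s ^ 2 * φ ^ 6 + (41) * C ^ 4 * s * φ ^ 5 + (-19) * C ^ 3 * s ^ 2 * φ ^ 5 + (-33) * C ^ 5 * φ ^ 5 + (3) * C ^ 2 * s ^ 3 * φ ^ 5 + (-54) * C ^ 5 * φ ^ 4 + (67) * C ^ 4 * s * φ ^ 4 + (5) * C ^ 2 * s ^ 3 * φ ^ 4 + (-30) * C ^ 3 * s ^ 2 * φ ^ 4 + (-2) * C * s ^ 4 * φ ^ 3 + (105) * C ^ 4 * s * φ ^ 3 + (10) * C ^ 2 * s ^ 3 * φ ^ 3 + (-57) * C ^ 5 * φ ^ 3 + (-50) * C ^ 3 * s ^ 2 * φ ^ 3 + (20) * C ^ 2 * s ^ 3 * φ ^ 2 + (90) * C ^ 4 * s * φ ^ 2 + (-32)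 * C ^ 5 * φ ^ 2 + (-80) * C ^ 3 * s ^ 2 * φ ^ 2 + (-2) * C * s ^ 4 * φ ^ 2 + (-50) * C ^ 3 * s ^ 2 * φ + (35) * C ^ 4 * s * φ + (-9) * C ^ 5 * φ + (-4) * C * s ^ 4 * φ + (30) * C ^ 2 * s ^ 3 * φ + (10) * C ^ 2 * s ^ 3 + (-10) * C ^ 3 * s ^ 2 + (5) * C ^ 4 * s + (-1) * C ^ 5 + (-6) * C * s ^ 4) * hφ

/-- **The chain off the node has fifth root `φ C`.** -/
theorem Chain.eq_phi (D : Chain A C) (hφ : φ ^ 2 = φ + 1) (hA : A = φ ^ 5 * C) (hC : C ≠ 0)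
    (g : D.x1 ≠ nodeX φ C) (h2 : D.x2 ≠ 0) (h4 : D.x4 ≠ 0) {u : k}
    (hu : u * (D.x4 * D.x2 ^ 2 * fF C D.x1 D.y1) = -(A * C ^ 2 * D.n4 * D.n2 ^ 2)) :
    u = φ * C := by
  have hφ0 : φ ≠ 0 := fun e => by rw [e] at hφ; simp at hφ
  have hX := nodeX_ne_zero hφ hC
  have g4 : D.x4 ≠ nodeX φ C := fun e => by
    rcases D.line.swap.node hφ hA e (D.on4'' ▸ D.eq4) with h | h
    · exact g h
    · exact hX h.symm
  have g2 : D.x2 ≠ nodeX φ C := fun e => by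
    rcases D.line4.node hφ hA e (D.on4 ▸ D.eq2) with h | h
    · -- the tangent at the node
      rcases D.line2.rot.node hφ hA e (D.on2' ▸ famEq_negF D.eq2) with h' | h' <;> exact g h'
    · exact g4 h
  have hAC : A * C ^ 2 ≠ 0 := by simp [hA, hφ0, hC]
  have hT : hF φ C 0 (A * C ^ 2) = φ * C := by
    rw [hF, div_eq_iff (sub_ne_zero.mpr hX.symm), hA, nodeX]; ring
  have eT : hF φ C D.x1 D.y1 * hF φ C D.x4 D.y4 * (φ * C) = A * C ^ 2 := by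
    have := D.line.prod_hF hφ hA g g4 hX.symm
    rwa [← D.on1, ← D.on4'', mul_zero, zero_add, hT] at this
  have e2 : hF φ C D.x1 D.y1 ^ 2 * hF φ C D.x2 (negF A C D.x2 D.y2) = D.n2 := by
    have := D.line2.prod_hF hφ hA g g g2
    rwa [← D.on2, ← D.on2', ← sq] at this
  have e4 : hF φ C D.x2 D.y2 ^ 2 * hF φ C D.x4 (negF A C D.x4 D.y4) = D.n4 := by
    have := D.line4.prod_hF hφ hA g2 g2 g4
    rwa [← D.on4, ← D.on4', ← sq] at this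
  have v2 := hF_mul_neg hφ hA D.eq2 g2
  have v4 := hF_mul_neg hφ hA D.eq4 g4
  have hf := fF_eq_pow hφ hA D.eq1 g
  set f1 := fF C D.x1 D.y1
  set a1 := hF φ C D.x1 D.y1
  set a2 := hF φ C D.x2 D.y2
  set b2 := hF φ C D.x2 (negF A C D.x2 D.y2)
  set a4 := hF φ C D.x4 D.y4
  set b4 := hF φ C D.x4 (negF A C D.x4 D.y4)
  have ha1 : a1 ≠ 0 := fun e => hAC (by rw [← eT, e, zero_mul, zero_mul])
  have key : -(A * C ^ 2 * D.n4 * D.n2 ^ 2) = φ * C * (D.x4 * D.x2 ^ 2 * f1) := by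
    rw [← eT, ← e2, ← e4, hf]
    calc _ = -(φ * C * a1 ^ 5 * (a4 * b4) * (a2 * b2) ^ 2) := by ring
      _ = _ := by rw [v2, v4]; ring
  refine mul_right_cancel₀ ?_ (hu.trans key)
  exact mul_ne_zero (mul_ne_zero h4 (pow_ne_zero 2 h2)) (hf ▸ pow_ne_zero 5 ha1)

end FA.TwentyFive

end
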