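import Fermat.Agent.TwentyFive.Reduce
import Fermat.Agent.TwentyFive.Node
import Mathlib.NumberTheory.Padics.PadicNumbers

/-!
# A point of nonsingular reduction fixes the fifth root

At a prime `l ∤ 5 a c` dividing the discriminant, a point `P` of nonsingular reduction makes
`a / c` reduce to a root of `u² = u + 1`.
-/

set_option autoImplicit false
set_option linter.unusedSectionVars false

noncomputable section

open WeierstrassCurve FA.Local

namespace FA.TwentyFive

/-- **Nonsingular reduction of `P` forces `l ∣ a² - a c - c²`.** -/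
theorem dvd_of_nsRed {a c : ℤ} {l : ℕ} [Fact l.Prime] (h5 : l ≠ 5) (hac : ¬ (l : ℤ) ∣ a * c)
    (hdvd : (l : ℤ) ∣ formH a c)
    {h0 : (famW ((a : ℚ) ^ 5) ((c : ℚ) ^ 5)).toAffine.Nonsingular 0 0} {x y : ℚ}
    {h : (famW ((a : ℚ) ^ 5) ((c : ℚ) ^ 5)).toAffine.Nonsingular x y}
    (hP : addOrderOf (Affine.Point.some x y h :
      (famW ((a : ℚ) ^ 5) ((c : ℚ) ^ 5)).toAffine.Point) = 25)
    (hT : 5 • (Affine.Point.some x y h : (famW ((a : ℚ) ^ 5) ((c : ℚ) ^ 5)).toAffine.Point) =
      .some 0 0 h0)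
    (hns : NsRed (Rat.padicValuation l) (famW ((a : ℚ) ^ 5) ((c : ℚ) ^ 5)).toAffine x y) :
    (l : ℤ) ∣ a ^ 2 - a * c - c ^ 2 := by
  set v := Rat.padicValuation l with hv
  have iff1 : ∀ n : ℤ, v (n : ℚ) = 1 ↔ ¬ (l : ℤ) ∣ n := fun n => by
    rw [hv, Rat.padicValuation_cast, Int.padicValuation_eq_one_iff]
  have ha1 : v (a : ℚ) = 1 := (iff1 a).mpr fun hd => hac (hd.mul_right c)
  have hc1 : v (c : ℚ) = 1 := (iff1 c).mpr fun hd => hac (hd.mul_left a)
  have hA : v ((a : ℚ) ^ 5) = 1 := by rw [map_pow, ha1, one_pow]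
  have hC : v ((c : ℚ) ^ 5) = 1 := by rw [map_pow, hc1, one_pow]
  have hC0 : (c : ℚ) ≠ 0 := v.ne_zero_iff.mp (by rw [hc1]; exact one_ne_zero)
  have hA0 : (a : ℚ) ≠ 0 := v.ne_zero_iff.mp (by rw [ha1]; exact one_ne_zero)
  obtain ⟨D, hx, hy, h2, h4, hD⟩ := exists_integral_chain hA hC hP hT
  -- `U = a c⁴`
  have hU : D.U = (a : ℚ) * (c : ℚ) ^ 4 := by
    refine Odd.pow_injective (show Odd 5 from ⟨2, rfl⟩) ?_
    show D.U ^ 5 = _ ^ 5
    rw [D.U_pow (pow_ne_zero 5 hA0) (pow_ne_zero 5 hC0) h2 h4]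
    ring
  let ρ : v.valuationSubring →+* IsLocalRing.ResidueField v.valuationSubring := IsLocalRing.residue _
  have hint : ∀ n : ℤ, ∀ h : v (n : ℚ) ≤ 1, red v (n : ℚ) h = (n : IsLocalRing.ResidueField v.valuationSubring) :=
    fun n h => by
      rw [red, show (⟨(n : ℚ), h⟩ : v.valuationSubring) = (n : v.valuationSubring) from
        Subtype.ext (by simp), map_intCast]
  have hdiv : ∀ n : ℤ, ((n : IsLocalRing.ResidueField v.valuationSubring) = 0 ↔ (l : ℤ) ∣ n) :=
    fun n => by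
      rw [← hint n (intCast_le_one n), red_eq_zero_iff, hv, Rat.padicValuation_cast,
        Int.padicValuation_lt_one_iff]
  have hpow : ∀ n : ℤ, ∀ h : v ((n : ℚ) ^ 5) ≤ 1,
      red v ((n : ℚ) ^ 5) h = (n : IsLocalRing.ResidueField v.valuationSubring) ^ 5 := fun n h => by
    rw [← hint n (intCast_le_one n), red, red, ← map_pow]
    exact congrArg _ (Subtype.ext rfl)
  set α := (a : IsLocalRing.ResidueField v.valuationSubring) with hα
  set γ := (c : IsLocalRing.ResidueField v.valuationSubring) with hγ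
  have hγ0 : γ ≠ 0 := fun e => hac (((hdiv c).mp e).mul_left a)
  have five : (5 : IsLocalRing.ResidueField v.valuationSubring) ≠ 0 := fun e => h5 (by
    have := (hdiv 5).mp (by exact_mod_cast e)
    exact ((Nat.prime_dvd_prime_iff_eq Fact.out Nat.prime_five).mp (Int.natCast_dvd_natCast.mp this)))
  have hH : (α ^ 5) ^ 2 - 11 * α ^ 5 * γ ^ 5 - (γ ^ 5) ^ 2 = 0 := by
    have := (hdiv (formH a c)).mpr hdvd
    simp only [formH, Int.cast_sub, Int.cast_mul, Int.cast_pow, Int.cast_ofNat] at this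
    rw [hα, hγ]
    linear_combination this
  obtain ⟨φ, hφdef⟩ : ∃ φ, 5 * φ = α ^ 5 / γ ^ 5 - 3 :=
    ⟨(α ^ 5 / γ ^ 5 - 3) / 5, mul_div_cancel₀ _ five⟩
  have hAe : α ^ 5 = (5 * φ + 3) * γ ^ 5 := by
    rw [hφdef]; field_simp; ring
  have hφ : φ ^ 2 = φ + 1 := by
    have e : (25 : IsLocalRing.ResidueField v.valuationSubring) * (γ ^ 5) ^ 2 *
        (φ ^ 2 - (φ + 1)) = 0 := by
      rw [hAe] at hH; linear_combination hH
    rcases mul_eq_zero.mp e with e | e
    · rcases mul_eq_zero.mp e with e | e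
      · exact absurd (by linear_combination e :
          (5 : IsLocalRing.ResidueField v.valuationSubring) * 5 = 0) (mul_ne_zero five five)
      · exact absurd e (pow_ne_zero 2 (pow_ne_zero 5 hγ0))
    · exact sub_eq_zero.mp e
  have hAφ : α ^ 5 = φ ^ 5 * γ ^ 5 := by
    rw [hAe]; linear_combination -((φ ^ 3 + φ ^ 2 + 2 * φ + 3) * γ ^ 5) * hφ
  set E := D.reduce hA.le hC.le hD
  have eA : red v ((a : ℚ) ^ 5) hA.le = φ ^ 5 * red v ((c : ℚ) ^ 5) hC.le := by
    rw [hpow, hpow]; exact hAφ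
  have eC : red v ((c : ℚ) ^ 5) hC.le ≠ 0 := by rw [hpow]; exact pow_ne_zero 5 hγ0
  have g : E.x1 ≠ nodeX φ (red v ((c : ℚ) ^ 5) hC.le) := by
    intro e
    have ey : E.y1 = nodeY φ (red v ((c : ℚ) ^ 5) hC.le) := eq_nodeY hφ eA (e ▸ E.eq1)
    have hfy := node_fy hφ eA
    have hfx := node_fx hφ eA
    rw [← e, ← ey] at hfy hfx
    have hx1 := hD.hx1
    have hy1 := hD.hy1
    subst hx hy
    rcases hns with hh | hh
    · refine hh.not_lt ((red_eq_zero_iff v hh.le).mp ?_)
      rw [← hfy]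
      simp only [E, Chain.reduce, Chain.map, red, ← map_mul, ← map_pow, ← map_sub, ← map_add,
        ← map_ofNat (IsLocalRing.residue v.valuationSubring)]
      exact congrArg _ (Subtype.ext (by
        simp [FA.Local.fy, famW, show ((2 : v.valuationSubring) : ℚ) = 2 from
          map_ofNat v.valuationSubring.subtype 2]
        ring))
    · refine hh.not_lt ((red_eq_zero_iff v hh.le).mp ?_)
      rw [← hfx]
      simp only [E, Chain.reduce, Chain.map, red, ← map_mul, ← map_pow, ← map_sub,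
        ← map_ofNat (IsLocalRing.residue v.valuationSubring)]
      exact congrArg _ (Subtype.ext (by
        simp [FA.Local.fx, famW, show ((2 : v.valuationSubring) : ℚ) = 2 from
          map_ofNat v.valuationSubring.subtype 2, show ((3 : v.valuationSubring) : ℚ) = 3 from
          map_ofNat v.valuationSubring.subtype 3]
        ring))
  have nz := D.reduce_x_ne_zero hA.le hC.le hD
  have hu := E.eq_phi hφ eA eC g nz.1 nz.2 (D.reduce_U hA hC hD h2 h4)
  have eU : red v D.U (val_U hA hC h2 h4).le = α * γ ^ 4 := by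
    rw [hα, hγ, ← hint a (intCast_le_one a), ← hint c (intCast_le_one c)]
    simp only [red, ← map_pow, ← map_mul]
    exact congrArg _ (Subtype.ext (by simp [hU]))
  rw [eU, hpow] at hu
  have hαφ : α = φ * γ := mul_right_cancel₀ (pow_ne_zero 4 hγ0) (by rw [hu]; ring)
  refine (hdiv _).mp ?_
  push_cast
  rw [← hα, ← hγ, hαφ]
  linear_combination γ ^ 2 * hφ

end FA.TwentyFive

end
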