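import Fermat.Agent.TwentyFive.Reduce
import Fermat.Agent.RT.Tate.MultNode
import Fermat.Agent.Deform.Frobenius

/-!
# A point of singular reduction

At a prime of multiplicative reduction prime to `10` let `5 P = T` with `T` of nonsingular and `P`
of singular reduction. The derivative at `P` is rational with the value of the abscissa on the nodal
normal form, so `5` divides the exponent of the prime in the discriminant.
-/

set_option autoImplicit false
set_option linter.unusedSectionVars false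

noncomputable section

open WeierstrassCurve FA.Frob FA.Local FA.LocalDef FA.RT
open scoped WeierstrassCurve.Affine

namespace FA.TwentyFive

local notation "Qb" => AlgebraicClosure ℚ

/-- A rational number with its valuations at `l` and at a place over `l`. -/
theorem valuation_ratCast_of_le_one {l : ℕ} [Fact l.Prime] {A : ValuationSubring Qb}
    (hA : A.LiesOverPrime l) {x : ℚ} (hx : Rat.padicValuation l x ≤ 1) :
    A.valuation (x : Qb) ≤ 1 ∧ (Rat.padicValuation l x < 1 → A.valuation (x : Qb) < 1) := by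
  have hd0 : (x.den : ℚ) ≠ 0 := Nat.cast_ne_zero.mpr x.den_nz
  have hnum : Rat.padicValuation l (x.num : ℚ) =
      Rat.padicValuation l x * Rat.padicValuation l ((x.den : ℤ) : ℚ) := by
    rw [← map_mul, Int.cast_natCast, Rat.mul_den_eq_num]
  have hden : ¬ (l : ℤ) ∣ (x.den : ℤ) := fun hd => by
    have h1 : Rat.padicValuation l (x.num : ℚ) < 1 := by
      rw [hnum]
      refine lt_of_le_of_lt (mul_le_of_le_one_left' hx) (lt_of_le_of_ne ?_ ?_)
      · rw [Rat.padicValuation_cast]; exact Int.padicValuation_le_one _ _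
      · rw [Rat.padicValuation_cast, Ne, Int.padicValuation_eq_one_iff]; exact not_not.mpr hd
    have hn : (l : ℤ) ∣ x.num := by
      by_contra hn
      rw [Rat.padicValuation_cast, Int.padicValuation_eq_one_iff.mpr hn] at h1
      exact lt_irrefl _ h1
    have := (Int.isCoprime_iff_nat_coprime.mpr (by simpa using x.reduced) :
      IsCoprime x.num (x.den : ℤ)).isUnit_of_dvd' hn hd
    rw [Int.isUnit_iff_natAbs_eq, Int.natAbs_natCast] at this
    exact (Fact.out : l.Prime).one_lt.ne' this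
  have hpd : Rat.padicValuation l ((x.den : ℤ) : ℚ) = 1 := by
    rw [Rat.padicValuation_cast, Int.padicValuation_eq_one_iff]; exact hden
  rw [hpd, mul_one] at hnum
  have e : A.valuation (x : Qb) = A.valuation (x.num : Qb) := by
    have h1 := congrArg A.valuation (show (x : Qb) * ((x.den : ℤ) : Qb) = (x.num : Qb) by
      exact_mod_cast congrArg (fun z : ℚ => (z : Qb)) (Rat.mul_den_eq_num x))
    rwa [map_mul, valuation_intCast_of_liesOverPrime Fact.out hA hden, mul_one] at h1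
  rw [e]
  refine ⟨intCast_le_one _, fun h => intCast_lt_one_of_dvd (A.mem_nonunits_iff.mp hA) ?_⟩
  by_contra hn
  rw [← hnum, Rat.padicValuation_cast, Int.padicValuation_eq_one_iff.mpr hn] at h
  exact lt_irrefl _ h

/-- The value of a rational number is a power of that of the prime. -/
theorem exists_zpow_ratCast {l : ℕ} (hl : l.Prime) {A : ValuationSubring Qb}
    (hA : A.LiesOverPrime l) {x : ℚ} (hx : x ≠ 0) :
    ∃ k : ℤ, A.valuation (x : Qb) = A.valuation (l : Qb) ^ k := by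
  refine ⟨padicValInt l x.num - padicValInt l x.den, ?_⟩
  have h0 : A.valuation (l : Qb) ≠ 0 :=
    A.valuation.ne_zero_iff.mpr (Nat.cast_ne_zero.mpr hl.ne_zero)
  rw [Rat.cast_def, map_div₀, ← Int.cast_natCast x.den,
    exists_valuation_eq_pow hl hA (Rat.num_ne_zero.mpr hx),
    exists_valuation_eq_pow hl hA (Int.natCast_ne_zero.mpr x.den_nz), zpow_sub₀ h0, zpow_natCast,
    zpow_natCast]

section NodeArith

variable {W : WeierstrassCurve ℤ} [(ratCurve W).IsElliptic] {l : ℕ} {A : ValuationSubring Qb}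
  {r : Qb}

theorem four_mul_toOrigin_a₄ (V : WeierstrassCurve Qb) (x : Qb) :
    4 * (toOrigin V x).a₄ = 12 * x ^ 2 + 2 * V.b₂ * x + 2 * V.b₄ := by
  rw [toOrigin_a₄, halfY, WeierstrassCurve.b₂, WeierstrassCurve.b₄]
  field_simp
  ring

/-- Singular reduction means congruence with the node. -/
theorem sub_node_lt_one (N : FA.RT.Tate.NodeData W l A r) (h2 : A.valuation (2 : Qb) = 1)
    {X Y : Qb} (hE : ((ratCurve W)⁄Qb).toAffine.Equation X Y) (hX : A.valuation X ≤ 1)
    (hfy : A.valuation (fy ((ratCurve W)⁄Qb).toAffine X Y) < 1)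
    (hfx : A.valuation (fx ((ratCurve W)⁄Qb).toAffine X Y) < 1) :
    A.valuation (X - r) < 1 := by
  set V := ((ratCurve W)⁄Qb)
  set η := fy V.toAffine X Y
  set ξ := fx V.toAffine X Y
  have hI := intCoeff_ratCurve W A
  have e1 : psi2 V X = η ^ 2 := by
    rw [Affine.equation_iff] at hE
    simp only [psi2, η, fy, WeierstrassCurve.b₂, WeierstrassCurve.b₄, WeierstrassCurve.b₆]
    linear_combination -4 * hE
  have e2 : 12 * X ^ 2 + 2 * V.b₂ * X + 2 * V.b₄ = 4 * ξ + 2 * (V.toAffine.a₁ * η) := by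
    simp only [η, ξ, fy, fx, WeierstrassCurve.b₂, WeierstrassCurve.b₄]
    ring
  have e4 : -(4 * (X - r) ^ 3) = 2 * η ^ 2 -
      (X - r) * (4 * ξ + 2 * (V.toAffine.a₁ * η) + 4 * (toOrigin V r).a₄) := by
    rw [← e1, ← e2, four_mul_toOrigin_a₄]
    have hr : psi2 V r = 0 := N.root
    simp only [psi2] at hr ⊢
    linear_combination (-2 : Qb) * hr
  have h4 : A.valuation ((4 : Qb) * (X - r) ^ 3) < 1 := by
    rw [← A.valuation.map_neg, e4]
    refine A.valuation.map_sub_lt (map_mul_lt_one le_two ?_)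
      (map_mul_lt_one (A.valuation.map_sub_le hX N.int) (A.valuation.map_add_lt
        (A.valuation.map_add_lt (map_mul_lt_one le_four hfx) (map_mul_lt_one le_two ?_))
        (map_mul_lt_one le_four N.node.hb)))
    · rw [map_pow]; exact pow_lt_one₀ zero_le hfy two_ne_zero
    · exact map_mul_lt_one hI.h₁ hfy
  rw [show (4 : Qb) = 2 * 2 by norm_num, map_mul, map_mul, h2, one_mul, one_mul, map_pow] at h4
  by_contra hc
  exact absurd h4 (not_lt.mpr (one_le_pow_of_one_le' (not_lt.mp hc) 3))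

/-- The node has unit abscissa when `b₆` is a unit. -/
theorem node_abscissa_unit (N : FA.RT.Tate.NodeData W l A r)
    (hb6 : A.valuation ((ratCurve W)⁄Qb).b₆ = 1) : A.valuation r = 1 := by
  refine eq_one_of_not_lt N.int fun hlt => ?_
  have hI := intCoeff_ratCurve W A
  set V := ((ratCurve W)⁄Qb)
  have hr : psi2 V r = 0 := N.root
  simp only [psi2] at hr
  have e : V.b₆ = -(r * (4 * r ^ 2 + V.b₂ * r + 2 * V.b₄)) := by linear_combination hr
  have hb2 : A.valuation V.b₂ ≤ 1 :=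
    A.valuation.map_add_le (map_pow_le_one hI.h₁ 2) (map_mul_le_one le_four hI.h₂)
  have hb4 : A.valuation V.b₄ ≤ 1 :=
    A.valuation.map_add_le (map_mul_le_one le_two hI.h₄) (map_mul_le_one hI.h₁ hI.h₃)
  rw [e, A.valuation.map_neg] at hb6
  exact (map_mul_lt_one' hlt (A.valuation.map_add_le (A.valuation.map_add_le
    (map_mul_le_one le_four (map_pow_le_one hlt.le 2)) (map_mul_le_one hb2 hlt.le))
    (map_mul_le_one le_two hb4))).ne hb6

/-- **The divisibility**: a rational point congruent to the node, five times which is not. -/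
theorem five_dvd_of_node (N : FA.RT.Tate.NodeData W l A r) {X Y : Qb}
    {hXY : ((ratCurve W)⁄Qb).toAffine.Nonsingular X Y}
    (hsing : A.valuation (X - r) < 1)
    {h0 : ((ratCurve W)⁄Qb).toAffine.Nonsingular 0 0} (hr : A.valuation r = 1)
    (hT : 5 • (Affine.Point.some X Y hXY : ((ratCurve W)⁄Qb).toAffine.Point) =
      .some 0 0 h0)
    {z : ℚ} (hz : fy ((ratCurve W)⁄Qb).toAffine X Y = (z : Qb)) : 5 ∣ padicValInt l W.Δ := by
  classical
  have h := N.mult
  obtain ⟨P, hP⟩ := (originEquiv ((ratCurve W)⁄Qb) r).surjective (.some X Y hXY)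
  obtain ⟨Q, hQ⟩ := (originEquiv ((ratCurve W)⁄Qb) r).surjective (.some 0 0 h0)
  have h5 : 5 • P = Q := (originEquiv ((ratCurve W)⁄Qb) r).injective (by
    rw [map_nsmul, hP, hQ, hT])
  have hQE : E0 A.valuation (toOrigin ((ratCurve W)⁄Qb) r).toAffine Q := by
    rcases Q with _ | ⟨x, y, hxy⟩
    · trivial
    obtain ⟨h', e⟩ := originEquiv_some hxy
    rw [e, Affine.Point.some.injEq] at hQ
    rw [e0_some, show x = -r by linear_combination hQ.1, A.valuation.map_neg, hr]
  have hp : Nat.Prime 5 := Nat.prime_five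
  rcases FA.RT.Tate.e0_or_br_of_nsmul N.node (hp.odd_of_ne_two (by norm_num)) (P := P)
    (h5 ▸ hQE) with hE | ⟨g, s, hbr⟩
  · exfalso
    rcases P with _ | ⟨x, y, hxy⟩
    · rw [show (Affine.Point.zero : (toOrigin ((ratCurve W)⁄Qb) r).toAffine.Point) = 0 from rfl,
        map_zero] at hP
      exact Affine.Point.some_ne_zero _ hP.symm
    obtain ⟨h', e⟩ := originEquiv_some hxy
    rw [e, Affine.Point.some.injEq] at hP
    rw [e0_some, show x = X - r by linear_combination hP.1] at hE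
    exact absurd hE (not_le.mpr hsing)
  obtain ⟨i, hi⟩ := FA.RT.Tate.pow_eq_of_nsmul_e0 N.node hp hbr (h5 ▸ hQE)
  obtain ⟨x, y, hxy, rfl⟩ := hbr.exists_eq
  obtain ⟨h', e⟩ := originEquiv_some hxy
  rw [e, Affine.Point.some.injEq] at hP
  rw [br_some] at hbr
  obtain ⟨rfl, hlo, hhi, -, -⟩ := hbr
  have hx : x ≠ 0 := A.valuation.pos_iff.mp (lt_of_le_of_lt zero_le hlo)
  have hb := N.node.br_self hxy hlo hhi
  rw [br_some] at hb
  have hvz : A.valuation (z : Qb) = A.valuation x := by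
    rw [← hz, ← hP.1, ← hP.2, fy_origin two_ne_zero, fy, N.node.h₃, add_zero,
      show 2 * y + (toOrigin ((ratCurve W)⁄Qb) r).toAffine.a₁ * x =
        (2 * (y / x) + (toOrigin ((ratCurve W)⁄Qb) r).toAffine.a₁) * x by field_simp, map_mul,
      N.node.unit_root hb.2.2.2.2, one_mul]
  have hz0 : z ≠ 0 := fun e => by
    rw [e, Rat.cast_zero, map_zero] at hvz
    exact hx (A.valuation.zero_iff.mp hvz.symm)
  obtain ⟨k, hk⟩ := exists_zpow_ratCast h.prime h.lies hz0
  have ha : A.valuation (toOrigin ((ratCurve W)⁄Qb) r).toAffine.a₄ ^ 2 =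
      A.valuation (l : Qb) ^ padicValInt l W.Δ := by
    have hu : A.valuation (discB ((ratCurve W)⁄Qb) r ^ 2 -
        64 * (toOrigin ((ratCurve W)⁄Qb) r).toAffine.a₄) = 1 := by
      have hB : A.valuation (discB ((ratCurve W)⁄Qb) r ^ 2) = 1 := by
        rw [map_pow, ← toOrigin_disc,
          show A.valuation ((toOrigin ((ratCurve W)⁄Qb) r).toAffine.a₁ ^ 2 +
            4 * (toOrigin ((ratCurve W)⁄Qb) r).toAffine.a₂) = 1 from N.node.hdisc, one_pow]
      refine eq_one_of_sub_lt hB ?_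
      rw [sub_sub_cancel_left, A.valuation.map_neg]
      exact map_mul_lt_one (natCast_le_one 64) N.node.hb
    have hΔ := congrArg A.valuation
      (toOrigin_Δ_eq (V := ((ratCurve W)⁄Qb)) two_ne_zero N.root)
    rw [map_Δ_ratCurve, map_mul, map_pow, hu, mul_one,
      exists_valuation_eq_pow h.prime h.lies h.ne_zero] at hΔ
    exact hΔ.symm
  have hi0 : i ≠ 0 := by
    rintro rfl
    rw [mul_zero, pow_zero] at hi
    exact (pow_lt_one₀ zero_le hhi hp.ne_zero).ne hi
  have hi5 : i < 5 := by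
    by_contra hc
    have h1 := pow_lt_pow_left₀ hlo zero_le hp.ne_zero
    rw [hi] at h1
    exact absurd h1 (not_lt.mpr (pow_le_pow_right_of_le_one' N.node.hb.le (by omega)))
  have h0' : (0 : _) < A.valuation (l : Qb) :=
    A.valuation.pos_iff.mpr (Nat.cast_ne_zero.mpr h.prime.ne_zero)
  have hkey : A.valuation (l : Qb) ^ ((padicValInt l W.Δ * i : ℕ) : ℤ) =
      A.valuation (l : Qb) ^ (k * (5 : ℕ)) := by
    rw [zpow_natCast, pow_mul, ← ha, ← pow_mul, ← hi, _root_.zpow_mul, ← hk, hvz, zpow_natCast]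
  have hd : 5 ∣ padicValInt l W.Δ * i := Int.natCast_dvd_natCast.mp
    ⟨k, by rw [zpow_right_injective₀ h0' h.map_lt_one.ne hkey, mul_comm]⟩
  rcases hp.dvd_mul.mp hd with hd | hd
  · exact hd
  · exact absurd (Nat.le_of_dvd (Nat.pos_of_ne_zero hi0) hd) (not_le.mpr hi5)

/-- The same from rational data. -/
theorem five_dvd_of_rat [Fact l.Prime] {V : WeierstrassCurve ℚ} (hV : ratCurve W = V)
    (h : MultAt W l A) (hl2 : l ≠ 2) (hb6 : ¬ (l : ℤ) ∣ W.b₆)
    {h0 : V.toAffine.Nonsingular 0 0} {x y : ℚ} {hxy : V.toAffine.Nonsingular x y}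
    (hT : 5 • (Affine.Point.some x y hxy : V.toAffine.Point) = .some 0 0 h0)
    (hx : Rat.padicValuation l x ≤ 1) (hsing : ¬ NsRed (Rat.padicValuation l) V.toAffine x y) :
    5 ∣ padicValInt l W.Δ := by
  subst hV
  obtain ⟨r, N⟩ := FA.RT.Tate.exists_nodeData h
  have hc : ∀ q : ℚ, algebraMap ℚ Qb q = (q : Qb) := fun q => eq_ratCast _ q
  have hle : ∀ n : ℤ, Rat.padicValuation l (n : ℚ) ≤ 1 := fun n => intCast_le_one n
  have hI : IntCoeff (Rat.padicValuation l) (ratCurve W).toAffine :=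
    ⟨hle W.a₁, hle W.a₂, hle W.a₃, hle W.a₄, hle W.a₆⟩
  have hy := le_y_of_le_x hI hxy.1 hx
  have hη1 := fy_le hI hx hy
  have hξ1 := fx_le hI hx hy
  obtain ⟨hηs, hξs⟩ := not_or.mp hsing
  set φ := Affine.Point.map (W' := (ratCurve W).toAffine) (Algebra.ofId ℚ Qb) with hφ
  obtain ⟨hXY, eP⟩ : ∃ hXY, φ (Affine.Point.some x y hxy) =
      (Affine.Point.some (x : Qb) (y : Qb) hXY : ((ratCurve W)⁄Qb).toAffine.Point) := by
    have hXY : ((ratCurve W)⁄Qb).toAffine.Nonsingular (x : Qb) (y : Qb) := by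
      rw [← hc, ← hc]
      exact ((ratCurve W).toAffine.baseChange_nonsingular (f := Algebra.ofId ℚ Qb)
        (RingHom.injective _) x y).mpr hxy
    refine ⟨hXY, ?_⟩
    erw [hφ, Affine.Point.map_some]
    rw [Affine.Point.some.injEq]
    exact ⟨hc x, hc y⟩
  obtain ⟨h00, e0⟩ : ∃ h00, φ (Affine.Point.some 0 0 h0) =
      (Affine.Point.some (0 : Qb) (0 : Qb) h00 : ((ratCurve W)⁄Qb).toAffine.Point) := by
    have h00 : ((ratCurve W)⁄Qb).toAffine.Nonsingular (0 : Qb) (0 : Qb) := by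
      rw [← map_zero (algebraMap ℚ Qb)]
      exact ((ratCurve W).toAffine.baseChange_nonsingular (f := Algebra.ofId ℚ Qb)
        (RingHom.injective _) 0 0).mpr h0
    refine ⟨h00, ?_⟩
    erw [hφ, Affine.Point.map_some]
    rw [Affine.Point.some.injEq]
    exact ⟨map_zero _, map_zero _⟩
  have hT' : 5 • (Affine.Point.some (x : Qb) (y : Qb) hXY : ((ratCurve W)⁄Qb).toAffine.Point) =
      .some 0 0 h00 := by
    rw [← eP, ← e0, ← map_nsmul]
    exact congrArg φ hT
  have efy : fy ((ratCurve W)⁄Qb).toAffine (x : Qb) (y : Qb) =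
      ((fy (ratCurve W).toAffine x y : ℚ) : Qb) := by
    simp [fy, WeierstrassCurve.baseChange]
  have efx : fx ((ratCurve W)⁄Qb).toAffine (x : Qb) (y : Qb) =
      ((fx (ratCurve W).toAffine x y : ℚ) : Qb) := by
    simp [fx, WeierstrassCurve.baseChange]
  have h2 : A.valuation (2 : Qb) = 1 := by
    simpa using valuation_intCast_of_liesOverPrime h.prime h.lies (n := 2) (fun hd =>
      hl2 ((Nat.prime_dvd_prime_iff_eq h.prime Nat.prime_two).mp (Int.natCast_dvd_natCast.mp hd)))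
  have hb : A.valuation ((ratCurve W)⁄Qb).b₆ = 1 := by
    simpa [WeierstrassCurve.baseChange] using
      valuation_intCast_of_liesOverPrime h.prime h.lies hb6
  refine five_dvd_of_node N (sub_node_lt_one N h2 hXY.1
    (valuation_ratCast_of_le_one h.lies hx).1 ?_ ?_) (node_abscissa_unit N hb) hT' efy
  · rw [efy]
    exact (valuation_ratCast_of_le_one h.lies hη1).2 (lt_of_le_of_ne hη1 hηs)
  · rw [efx]
    exact (valuation_ratCast_of_le_one h.lies hξ1).2 (lt_of_le_of_ne hξ1 hξs)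

end NodeArith

/-- **Singular reduction of `P` forces a fifth power.** -/
theorem five_dvd_padicValInt_of_singular {a c : ℤ} {l : ℕ} [Fact l.Prime] (h2 : l ≠ 2) (h5 : l ≠ 5)
    (hac : ¬ (l : ℤ) ∣ a * c) (hdvd : (l : ℤ) ∣ formH a c) (hH : formH a c ≠ 0)
    {h0 : (famW ((a : ℚ) ^ 5) ((c : ℚ) ^ 5)).toAffine.Nonsingular 0 0} {x y : ℚ}
    {h : (famW ((a : ℚ) ^ 5) ((c : ℚ) ^ 5)).toAffine.Nonsingular x y}
    (hT : 5 • (Affine.Point.some x y h : (famW ((a : ℚ) ^ 5) ((c : ℚ) ^ 5)).toAffine.Point) =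
      .some 0 0 h0)
    (hx : Rat.padicValuation l x ≤ 1)
    (hsing : ¬ NsRed (Rat.padicValuation l) (famW ((a : ℚ) ^ 5) ((c : ℚ) ^ 5)).toAffine x y) :
    5 ∣ padicValInt l (formH a c) := by
  have hl : l.Prime := Fact.out
  have hlp : Prime (l : ℤ) := Nat.prime_iff_prime_int.mp hl
  have ha : ¬ (l : ℤ) ∣ a := fun h => hac (h.mul_right c)
  have hc : ¬ (l : ℤ) ∣ c := fun h => hac (h.mul_left a)
  set W : WeierstrassCurve ℤ := famW (a ^ 5) (c ^ 5) with hW
  have hmap : ratCurve W = famW ((a : ℚ) ^ 5) ((c : ℚ) ^ 5) := by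
    show W.map (Int.castRingHom ℚ) = _
    rw [hW, map_famW]
    simp
  have hΔ : W.Δ = (a ^ 5 * c ^ 5) ^ 5 * formH a c := by
    simp only [hW, famW, formH, WeierstrassCurve.Δ, WeierstrassCurve.b₂, WeierstrassCurve.b₄,
      WeierstrassCurve.b₆, WeierstrassCurve.b₈]
    ring
  have ha0 : a ≠ 0 := fun h => ha (h ▸ dvd_zero _)
  have hc0 : c ≠ 0 := fun h => hc (h ▸ dvd_zero _)
  have hu : ((a ^ 5 * c ^ 5) ^ 5 : ℤ) ≠ 0 :=
    pow_ne_zero _ (mul_ne_zero (pow_ne_zero _ ha0) (pow_ne_zero _ hc0))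
  have hpu : ¬ (l : ℤ) ∣ (a ^ 5 * c ^ 5) ^ 5 := fun h => by
    rcases hlp.dvd_or_dvd (hlp.dvd_of_dvd_pow h) with h | h
    · exact ha (hlp.dvd_of_dvd_pow h)
    · exact hc (hlp.dvd_of_dvd_pow h)
  have hW0 : W.Δ ≠ 0 := hΔ ▸ mul_ne_zero hu hH
  have hc4 : ¬ (l : ℤ) ∣ W.c₄ := fun h => by
    have h1 : (l : ℤ) ∣ 5 * ((c ^ 5) ^ 3 * (11 * a ^ 5 + c ^ 5)) := by
      have h' := dvd_sub h (hdvd.mul_right ((a ^ 5) ^ 2 - a ^ 5 * c ^ 5 + 4 * (c ^ 5) ^ 2))
      rwa [show W.c₄ - formH a c * ((a ^ 5) ^ 2 - a ^ 5 * c ^ 5 + 4 * (c ^ 5) ^ 2) =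
        5 * ((c ^ 5) ^ 3 * (11 * a ^ 5 + c ^ 5)) by
          simp only [hW, famW, formH, WeierstrassCurve.c₄, WeierstrassCurve.b₂, WeierstrassCurve.b₄]
          ring] at h'
    rcases hlp.dvd_or_dvd h1 with h1 | h1
    · exact h5 ((Nat.prime_dvd_prime_iff_eq hl Nat.prime_five).mp (Int.natCast_dvd_natCast.mp h1))
    rcases hlp.dvd_or_dvd h1 with h1 | h1
    · exact hc (hlp.dvd_of_dvd_pow (hlp.dvd_of_dvd_pow h1))
    · refine ha (hlp.dvd_of_dvd_pow (n := 10) ?_)
      rw [show a ^ 10 = formH a c + c ^ 5 * (11 * a ^ 5 + c ^ 5) by simp only [formH]; ring]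
      exact dvd_add hdvd (h1.mul_left _)
  obtain ⟨A, hA⟩ := FA.Deform.exists_liesOverPrime hl
  have hM : MultAt W l A := ⟨hW0, hl, hΔ ▸ hdvd.mul_left _, hc4, hA⟩
  have : (ratCurve W).IsElliptic := hM.isElliptic
  have hb6 : ¬ (l : ℤ) ∣ W.b₆ := fun h => by
    rw [show W.b₆ = (a ^ 5 * (c ^ 5) ^ 2) ^ 2 by simp [hW, famW, WeierstrassCurve.b₆]] at h
    rcases hlp.dvd_or_dvd (hlp.dvd_of_dvd_pow h) with h | h
    · exact ha (hlp.dvd_of_dvd_pow h)
    · exact hc (hlp.dvd_of_dvd_pow (hlp.dvd_of_dvd_pow h))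
  have key := five_dvd_of_rat hmap hM h2 hb6 hT hx hsing
  rwa [hΔ, padicValInt.mul hu hH, padicValInt.eq_zero_of_not_dvd hpu, zero_add] at key

end FA.TwentyFive

end
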