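import Fermat.Agent.TwentyFive.Defs
import Mathlib.Algebra.QuadraticAlgebra.Basic
import Mathlib.NumberTheory.Zsqrtd.Basic
import Mathlib.RingTheory.PrincipalIdealDomain
import Mathlib.NumberTheory.Padics.PadicVal.Basic
import Mathlib.Data.Nat.Factorization.Basic
import Mathlib.Algebra.CharP.Lemmas
import Mathlib.Tactic.LinearCombination
import Mathlib.Tactic.NormNum.Prime

/-!
# Fifth powers in `ℤ[φ]`

`ℤ[φ]` is norm-Euclidean and its units are `± φ ^ k`. Hence `a ^ 2 - a c + φ ^ 2 c ^ 2` is a fifth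
power when its norm has all exponents divisible by `5` and `5 ∣ c`.
-/

set_option autoImplicit false

noncomputable section

open scoped QuadraticAlgebra

namespace FA.TwentyFive

/-- The ring `ℤ[φ]`, `φ ^ 2 = φ + 1`. -/
abbrev GRing : Type := QuadraticAlgebra ℤ 1 1

theorem gnorm_def (z : GRing) :
    QuadraticAlgebra.norm z = z.re ^ 2 + z.re * z.im - z.im ^ 2 := by
  rw [QuadraticAlgebra.norm_def]; ring

theorem gnorm_ne_zero {z : GRing} (hz : z ≠ 0) : QuadraticAlgebra.norm z ≠ 0 := by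
  intro h
  rw [gnorm_def] at h
  have : Zsqrtd.Nonsquare 5 := ⟨fun n h => by
    rcases n with _ | _ | _ | n <;> ring_nf at h <;> omega⟩
  have h5 : (⟨2 * z.re + z.im, z.im⟩ : ℤ√((5 : ℕ) : ℤ)).norm = 0 := by
    simp only [Zsqrtd.norm_def, Nat.cast_ofNat]; linear_combination 4 * h
  obtain ⟨h1, h2⟩ := Zsqrtd.ext_iff.mp (Zsqrtd.norm_eq_zero (fun n hn => by
    have hle : n.natAbs * n.natAbs = 5 := by
      have := congrArg Int.natAbs hn; simpa [Int.natAbs_mul] using this.symm
    have : n.natAbs ≤ 5 := Nat.le_of_dvd (by norm_num) ⟨_, hle.symm⟩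
    interval_cases n.natAbs <;> omega) _ |>.mp h5)
  simp only [Zsqrtd.re_zero, Zsqrtd.im_zero] at h1 h2
  exact hz (QuadraticAlgebra.ext (by rw [h2] at h1; simp; omega) (by simp [h2]))

theorem natAbs_lt_of_sq {x y : ℤ} (h : x ^ 2 < y ^ 2) : x.natAbs < y.natAbs := by
  rw [sq_lt_sq, Int.abs_eq_natAbs, Int.abs_eq_natAbs] at h
  exact_mod_cast h

theorem exists_near (p n : ℤ) (hn : n ≠ 0) : ∃ q, 2 * |p - n * q| ≤ |n| := by
  have hm : 0 < n.natAbs := Int.natAbs_pos.mpr hn
  obtain ⟨q, hq⟩ : n ∣ p - Int.bmod p n.natAbs :=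
    Int.natAbs_dvd.mp (Int.ModEq.dvd (Int.bmod_emod (x := p) (m := n.natAbs)))
  refine ⟨q, ?_⟩
  rw [show p - n * q = Int.bmod p n.natAbs by linarith, ← Int.natCast_natAbs n]
  have h1 := Int.le_bmod (x := p) hm
  have h2 := Int.bmod_lt (x := p) hm
  rw [abs_eq_max_neg]
  omega

/-- Division with remainder of smaller norm. -/
theorem exists_quotient (z : GRing) {w : GRing} (hw : w ≠ 0) :
    ∃ q, (QuadraticAlgebra.norm (z - w * q)).natAbs < (QuadraticAlgebra.norm w).natAbs := by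
  set n := QuadraticAlgebra.norm w with hn
  have hn0 : n ≠ 0 := gnorm_ne_zero hw
  obtain ⟨q₁, hq₁⟩ := exists_near (z * star w).re n hn0
  obtain ⟨q₂, hq₂⟩ := exists_near (z * star w).im n hn0
  refine ⟨⟨q₁, q₂⟩, ?_⟩
  have e : (z - w * ⟨q₁, q₂⟩) * star w =
      ⟨(z * star w).re - n * q₁, (z * star w).im - n * q₂⟩ := by
    rw [sub_mul, mul_right_comm, ← QuadraticAlgebra.algebraMap_norm_eq_mul_star, ← hn]
    ext <;> simp
  have e2 := congrArg QuadraticAlgebra.norm e
  rw [map_mul, QuadraticAlgebra.norm_star, ← hn] at e2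
  conv_rhs at e2 => rw [gnorm_def]
  set X := (z * star w).re - n * q₁
  set Y := (z * star w).im - n * q₂
  set N := QuadraticAlgebra.norm (z - w * ⟨q₁, q₂⟩)
  simp only at e2
  refine natAbs_lt_of_sq ?_
  have hX : 4 * X ^ 2 ≤ n ^ 2 := by nlinarith [sq_abs X, sq_abs n, abs_nonneg X, abs_nonneg n]
  have hY : 4 * Y ^ 2 ≤ n ^ 2 := by nlinarith [sq_abs Y, sq_abs n, abs_nonneg Y, abs_nonneg n]
  have hn2 : 0 < n ^ 2 := by positivity
  have h1 : X ^ 2 + X * Y - Y ^ 2 < n ^ 2 := by nlinarith [sq_nonneg (X - Y)]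
  have h2 : -(n ^ 2) < X ^ 2 + X * Y - Y ^ 2 := by nlinarith [sq_nonneg (X + Y)]
  have h3 : (N * n) ^ 2 < (n ^ 2) ^ 2 := by rw [e2]; nlinarith
  nlinarith

theorem gnorm_natAbs_le_mul (x : GRing) {y : GRing} (hy : y ≠ 0) :
    (QuadraticAlgebra.norm x).natAbs ≤ (QuadraticAlgebra.norm (x * y)).natAbs := by
  rw [map_mul, Int.natAbs_mul]
  exact Nat.le_mul_of_pos_right _ (Int.natAbs_pos.mpr (gnorm_ne_zero hy))

open scoped Classical in
/-- `ℤ[φ]` is norm-Euclidean. -/
@[instance_reducible]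
def euclideanGRing : EuclideanDomain GRing :=
  { (inferInstance : CommRing GRing), (inferInstance : Nontrivial GRing) with
    quotient := fun z w => if h : w = 0 then 0 else (exists_quotient z h).choose
    remainder := fun z w => if h : w = 0 then z else z - w * (exists_quotient z h).choose
    quotient_zero := fun z => dif_pos rfl
    quotient_mul_add_remainder_eq := fun z w => by
      by_cases h : w = 0
      · simp [h]
      · simp [h]
    r := _
    r_wellFounded := (measure fun z : GRing => (QuadraticAlgebra.norm z).natAbs).wf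
    remainder_lt := fun z w hw => by
      simp only [dif_neg hw]
      exact (exists_quotient z hw).choose_spec
    mul_left_not_lt := fun z w hw => not_lt_of_ge (gnorm_natAbs_le_mul z hw) }

theorem isPrincipal_GRing : IsDomain GRing ∧ IsPrincipalIdealRing GRing :=
  letI := euclideanGRing
  ⟨inferInstance, inferInstance⟩

/-- The golden ratio as a unit. -/
def gPhi : GRingˣ := ⟨⟨0, 1⟩, ⟨-1, 1⟩, by ext <;> simp, by ext <;> simp⟩

/-- Every unit is a fifth power times one of `1, φ, …, φ⁴`. -/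
theorem unit_eq (N : ℕ) : ∀ u : GRingˣ, (u : GRing).re.natAbs + (u : GRing).im.natAbs = N →
    ∃ (v : GRingˣ) (j : ℕ), j < 5 ∧ u = v ^ 5 * gPhi ^ j := by
  induction N using Nat.strong_induction_on with
  | _ N ih =>
  intro u hu
  obtain ⟨x, hx⟩ : ∃ x, (u : GRing).re = x := ⟨_, rfl⟩
  obtain ⟨y, hy⟩ : ∃ y, (u : GRing).im = y := ⟨_, rfl⟩
  rw [hx, hy] at hu
  have hN : x ^ 2 + x * y - y ^ 2 = 1 ∨ x ^ 2 + x * y - y ^ 2 = -1 := by
    have := Int.isUnit_iff.mp (u.isUnit.map QuadraticAlgebra.norm)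
    rwa [gnorm_def, hx, hy] at this
  rcases eq_or_ne y 0 with rfl | hy0
  · refine ⟨u, 0, by norm_num, ?_⟩
    have : (u : GRing) * u = 1 := by
      have : x * x = 1 := by
        rcases hN with h | h <;> nlinarith
      ext <;> simp [hx, hy, this]
    have h2 : u * u = 1 := Units.ext this
    rw [pow_zero, mul_one, show u ^ 5 = (u * u) * (u * u) * u by
      simp only [pow_succ, pow_zero, one_mul, mul_assoc], h2, one_mul, one_mul]
  rcases eq_or_ne x 0 with rfl | hx0
  · refine ⟨u * gPhi⁻¹, 1, by norm_num, ?_⟩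
    have : (u * gPhi⁻¹) * (u * gPhi⁻¹) = 1 := by
      have : y * y = 1 := by
        rcases hN with h | h <;> nlinarith
      ext <;> simp [gPhi, hx, hy, this]
    rw [show (u * gPhi⁻¹) ^ 5 = (u * gPhi⁻¹ * (u * gPhi⁻¹)) * (u * gPhi⁻¹ * (u * gPhi⁻¹)) *
      (u * gPhi⁻¹) by simp only [pow_succ, pow_zero, one_mul, mul_assoc], this, one_mul, one_mul,
      pow_one, inv_mul_cancel_right]
  rcases lt_or_gt_of_ne (mul_ne_zero hx0 hy0) with hneg | hpos
  · -- multiply by `φ`
    have hlt : (x + y).natAbs < x.natAbs := by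
      refine natAbs_lt_of_sq ?_
      by_contra hge
      rcases hN with h | h <;> nlinarith [mul_self_pos.mpr hx0, mul_self_pos.mpr hy0]
    obtain ⟨v, j, hj, e⟩ := ih _ (by omega) (u * gPhi)
      (show _ = y.natAbs + (x + y).natAbs by simp [gPhi, hx, hy])
    obtain _ | i := j
    · exact ⟨v * gPhi⁻¹, 4, by norm_num, mul_right_cancel (b := gPhi) (by
        rw [e, pow_zero, mul_one, mul_assoc, ← pow_succ, mul_pow, mul_assoc, inv_pow,
          inv_mul_cancel, mul_one])⟩
    · exact ⟨v, i, by omega, mul_right_cancel (b := gPhi) (by rw [e, pow_succ gPhi, mul_assoc])⟩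
  · -- multiply by `φ⁻¹`
    have hlt : (y - x).natAbs < y.natAbs := by
      refine natAbs_lt_of_sq ?_
      by_contra hge
      rcases hN with h | h <;> nlinarith [mul_self_pos.mpr hx0, mul_self_pos.mpr hy0]
    obtain ⟨v, j, hj, e⟩ := ih _ (by omega) (u * gPhi⁻¹)
      (show _ = (y - x).natAbs + x.natAbs by
        simp [gPhi, hx, hy, show -x + y = y - x by ring])
    rw [mul_inv_eq_iff_eq_mul, mul_assoc, ← pow_succ] at e
    rcases eq_or_ne j 4 with rfl | h4
    · exact ⟨v * gPhi, 0, by norm_num, by rw [e, mul_pow, pow_zero, mul_one]⟩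
    · exact ⟨v, j + 1, by omega, e⟩

theorem exists_pow_five {n : ℕ} (h : ∀ l : ℕ, l.Prime → 5 ∣ padicValNat l n) :
    ∃ M : ℕ, n = M ^ 5 := by
  rcases eq_or_ne n 0 with rfl | hn
  · exact ⟨0, rfl⟩
  refine ⟨∏ l ∈ n.primeFactors, l ^ (padicValNat l n / 5), ?_⟩
  rw [← Finset.prod_pow]
  conv_lhs => rw [← Nat.prod_factorization_pow_eq_self hn]
  rw [Finsupp.prod, Nat.support_factorization]
  refine Finset.prod_congr rfl fun l hl => ?_
  have hp := Nat.prime_of_mem_primeFactors hl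
  rw [Nat.factorization_def n hp, ← pow_mul, Nat.div_mul_cancel (h l hp)]

theorem formQ_pos {a c : ℤ} (h : IsCoprime a c) : 0 < formQ a c := by
  simp only [formQ]
  rcases eq_or_ne c 0 with rfl | hc
  · obtain rfl | rfl := Int.isUnit_iff.mp (isCoprime_zero_right.mp h) <;> norm_num
  · nlinarith [sq_nonneg (2 * a ^ 2 - 2 * a * c + c ^ 2), sq_nonneg (c * (2 * a - c)),
      mul_self_pos.mpr (pow_ne_zero 2 hc)]

/-- `Q = a² - a c + φ² c²`. -/
def gQ (a c : ℤ) : GRing := ⟨a ^ 2 - a * c + c ^ 2, c ^ 2⟩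

theorem pow_five_mod (W : GRing) : (5 : ℤ) ∣ (W ^ 5).im :=
  ⟨W.re ^ 4 * W.im + 2 * W.re ^ 3 * W.im ^ 2 + 4 * W.re ^ 2 * W.im ^ 3 + 3 * W.re * W.im ^ 4 +
    W.im ^ 5, by simp [pow_succ]; ring⟩

/-- **The fifth root.** -/
theorem exists_isFifthRoot {a c : ℤ} (hac : IsCoprime a c) (h5 : (5 : ℤ) ∣ c)
    (hN : ∀ l : ℕ, l.Prime → 5 ∣ padicValInt l (formQ a c)) : ∃ m n : ℤ, IsFifthRoot a c m n := by
  obtain ⟨hdom, hpid⟩ := isPrincipal_GRing
  have hQ : gQ a c * star (gQ a c) = algebraMap ℤ GRing (formQ a c) := by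
    rw [← QuadraticAlgebra.algebraMap_norm_eq_mul_star, gnorm_def]
    simp only [gQ, formQ]
    congr 1
    ring
  have hpos := formQ_pos hac
  obtain ⟨M, hM⟩ := exists_pow_five (n := (formQ a c).natAbs) hN
  have hco : IsCoprime (gQ a c) (star (gQ a c)) := by
    refine isCoprime_of_irreducible_dvd ?_ fun z hz h1 h2 => ?_
    · rintro ⟨h, -⟩
      rw [h, zero_mul, eq_comm, map_eq_zero_iff _ QuadraticAlgebra.algebraMap_injective] at hQ
      exact hpos.ne' hQ
    · have hp := hz.prime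
      have hc : z ∣ (c : GRing) := by
        have h3 : z ∣ (5 : GRing) * (c : GRing) ^ 2 := by
          have := (dvd_sub h1 h2).mul_left (⟨-1, 2⟩ : GRing)
          rwa [show (⟨-1, 2⟩ : GRing) * (gQ a c - star (gQ a c)) = 5 * (c : GRing) ^ 2 by
            ext <;> simp [gQ, pow_two] <;> ring] at this
        rcases hp.dvd_or_dvd h3 with h | h
        · exact h.trans (by simpa using map_dvd (Int.castRingHom GRing) h5)
        · exact hp.dvd_of_dvd_pow h
      have ha : z ∣ (a : GRing) := hp.dvd_of_dvd_pow (n := 2) (by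
        have e : ((a : GRing)) ^ 2 = gQ a c + (c : GRing) * (⟨a - c, -c⟩ : GRing) := by
          ext <;> simp [gQ, pow_two]
          ring
        rw [e]; exact dvd_add h1 (hc.mul_right _))
      exact hz.not_isUnit ((hac.intCast (R := GRing)).isUnit_of_dvd' ha hc)
  obtain ⟨d, u, hu⟩ := exists_associated_pow_of_mul_eq_pow' hco (c := (M : GRing)) (k := 5) (by
    rw [hQ, ← Nat.cast_pow, ← hM, eq_intCast, ← Int.cast_natCast, Int.natAbs_of_nonneg hpos.le])
  obtain ⟨v, j, hj, rfl⟩ := unit_eq _ u rfl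
  have hQ5 : gQ a c = (d * v) ^ 5 * (gPhi : GRing) ^ j := by
    rw [← hu, mul_pow, Units.val_mul, Units.val_pow_eq_pow_val, Units.val_pow_eq_pow_val, mul_assoc]
  generalize d * (v : GRing) = W at hQ5
  -- the exponent is zero
  have hj0 : j = 0 := by
    by_contra hj0
    obtain ⟨k, hk⟩ := pow_five_mod W
    have e1 := congrArg QuadraticAlgebra.im hQ5
    have e2 := congrArg QuadraticAlgebra.re hQ5
    obtain ⟨c', rfl⟩ := h5
    have ha : ¬ (5 : ℤ) ∣ a := fun h => absurd
      (Int.isUnit_iff.mp (hac.isUnit_of_dvd' h (dvd_mul_right 5 c'))) (by norm_num)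
    have hr : ¬ (5 : ℤ) ∣ (W ^ 5).re := by
      intro hr
      refine ha ((by rw [← Nat.cast_ofNat, ← Nat.prime_iff_prime_int]; norm_num : Prime (5 : ℤ)).dvd_of_dvd_pow (n := 2) ?_)
      have : (5 : ℤ) ∣ (gQ a (5 * c')).re := by
        rw [e2, QuadraticAlgebra.re_mul, hk]
        exact dvd_add (hr.mul_right _) (((dvd_mul_right 5 k).mul_left 1).mul_right _)
      simp only [gQ] at this
      rw [show a ^ 2 = a ^ 2 - a * (5 * c') + (5 * c') ^ 2 + 5 * (a * c' - 5 * c' ^ 2) by ring]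
      exact dvd_add this (dvd_mul_right 5 _)
    rw [QuadraticAlgebra.im_mul, hk] at e1
    simp only [gQ] at e1
    have h5r : (5 : ℤ) ∣ (W ^ 5).re * ((gPhi : GRing) ^ j).im :=
      ⟨5 * c' ^ 2 - k * ((gPhi : GRing) ^ j).re - k * ((gPhi : GRing) ^ j).im,
        by linear_combination -e1⟩
    have h5j := ((by rw [← Nat.cast_ofNat, ← Nat.prime_iff_prime_int]; norm_num : Prime (5 : ℤ)).dvd_or_dvd h5r).resolve_left hr
    interval_cases j <;> simp [gPhi, pow_succ] at h5j
    omega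
  subst hj0
  rw [pow_zero, mul_one] at hQ5
  refine ⟨2 * W.re + W.im, W.im, ?_⟩
  have e1 := congrArg QuadraticAlgebra.re hQ5
  have e2 := congrArg QuadraticAlgebra.im hQ5
  simp [gQ, pow_succ] at e1 e2
  constructor
  · linear_combination -32 * e1 - 16 * e2
  · linear_combination -16 * e2

end FA.TwentyFive

end
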