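import Fermat.Agent.TwentyFive.Descent
import Fermat.Agent.TwentyFive.Family
import Fermat.Agent.TwentyFive.Five
import Fermat.Agent.TwentyFive.Forms
import Fermat.Agent.TwentyFive.Local
import Fermat.Agent.TwentyFive.Singular
import Fermat.Agent.TwentyFive.Unit

/-!
# No rational point of order 25

An elementary proof: the parameter `a / c` of such a point makes a quadratic form over `ℤ[φ]` a
fifth power, which descends to `y² = m⁴ + 10 m² n² + 5 n⁴` and then to nothing.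
-/

set_option autoImplicit false

noncomputable section

open WeierstrassCurve FA.Local

namespace FA.TwentyFive

/-- The exponents in the discriminant off `5 a c (a² - a c - c²)` are divisible by `5`. -/
theorem five_dvd_padicValInt_formH {a c : ℤ} {l : ℕ} (hl : l.Prime) (h5 : l ≠ 5)
    (hac : ¬ (l : ℤ) ∣ a * c) (hX : ¬ (l : ℤ) ∣ a ^ 2 - a * c - c ^ 2)
    (hdvd : (l : ℤ) ∣ formH a c) (hH : formH a c ≠ 0)
    {h0 : (famW ((a : ℚ) ^ 5) ((c : ℚ) ^ 5)).toAffine.Nonsingular 0 0} {x y : ℚ}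
    {h : (famW ((a : ℚ) ^ 5) ((c : ℚ) ^ 5)).toAffine.Nonsingular x y}
    (hP : addOrderOf (Affine.Point.some x y h :
      (famW ((a : ℚ) ^ 5) ((c : ℚ) ^ 5)).toAffine.Point) = 25)
    (hT : 5 • (Affine.Point.some x y h : (famW ((a : ℚ) ^ 5) ((c : ℚ) ^ 5)).toAffine.Point) =
      .some 0 0 h0) : 5 ∣ padicValInt l (formH a c) := by
  have h2 : l ≠ 2 := by
    rintro rfl
    have e := (ZMod.intCast_zmod_eq_zero_iff_dvd _ 2).mpr hdvd
    have ha : (a : ZMod 2) ≠ 0 := fun e =>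
      hac (((ZMod.intCast_zmod_eq_zero_iff_dvd _ 2).mp e).mul_right c)
    have hc : (c : ZMod 2) ≠ 0 := fun e =>
      hac (((ZMod.intCast_zmod_eq_zero_iff_dvd _ 2).mp e).mul_left a)
    simp only [formH, Int.cast_sub, Int.cast_mul, Int.cast_pow, Int.cast_ofNat] at e
    revert e ha hc
    generalize (a : ZMod 2) = u
    generalize (c : ZMod 2) = w
    revert u w
    decide
  have := Fact.mk hl
  have one : ∀ n : ℤ, ¬ (l : ℤ) ∣ n → Rat.padicValuation l ((n : ℚ) ^ 5) = 1 := fun n hn => by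
    rw [map_pow, Rat.padicValuation_cast, Int.padicValuation_eq_one_iff.mpr hn, one_pow]
  obtain ⟨D, hx, -, -, -, hD⟩ := exists_integral_chain (one a fun hd => hac (hd.mul_right c))
    (one c fun hd => hac (hd.mul_left a)) hP hT
  by_cases hns : NsRed (Rat.padicValuation l) (famW ((a : ℚ) ^ 5) ((c : ℚ) ^ 5)).toAffine x y
  · exact absurd (dvd_of_nsRed h5 hac hdvd hP hT hns) hX
  · exact five_dvd_padicValInt_of_singular h2 h5 hac hdvd hH hT (hx ▸ hD.hx1) hns

/-- **No rational point of order `25`** on any elliptic curve over `ℚ`. -/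
theorem no_order_25 (E : WeierstrassCurve ℚ) [E.IsElliptic] (P : E.toAffine.Point) :
    addOrderOf P ≠ 25 := by
  intro hP
  obtain ⟨a, c, hac, ha, hc, hH, h0, x, y, h, hQ, hT⟩ := exists_family E P hP
  have hloc : ∀ l : ℕ, l.Prime → l ≠ 5 → ¬ (l : ℤ) ∣ a * c → ¬ (l : ℤ) ∣ a ^ 2 - a * c - c ^ 2 →
      (l : ℤ) ∣ formH a c → 5 ∣ padicValInt l (formH a c) :=
    fun l hl h5 h1 h2 h3 => five_dvd_padicValInt_formH hl h5 h1 h2 h3 hH hQ hT
  rcases (Int.prime_iff_natAbs_prime.mpr (by decide) : Prime (5 : ℤ)).dvd_or_dvd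
    (five_dvd_mul hQ hT) with h5 | h5
  · have hloc' : ∀ l : ℕ, l.Prime → l ≠ 5 → ¬ (l : ℤ) ∣ c * -a →
        ¬ (l : ℤ) ∣ c ^ 2 - c * -a - (-a) ^ 2 → (l : ℤ) ∣ formH c (-a) →
        5 ∣ padicValInt l (formH c (-a)) := by
      intro l hl hl5 h1 h2 h3
      rw [formH_swap, dvd_neg] at h3
      have h' := hloc l hl hl5 (fun hd => h1 (by rwa [mul_neg, dvd_neg, mul_comm]))
        (fun hd => h2 (by
          rwa [show c ^ 2 - c * -a - (-a) ^ 2 = -(a ^ 2 - a * c - c ^ 2) by ring, dvd_neg])) h3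
      rwa [formH_swap, padicValInt, Int.natAbs_neg]
    have hca : IsCoprime c (-a) := hac.symm.neg_right
    obtain ⟨m, n, hmn⟩ := exists_isFifthRoot hca (dvd_neg.mpr h5)
      (five_dvd_padicValInt_formQ hca (dvd_neg.mpr h5) (by rw [formH_swap, neg_ne_zero]; exact hH)
        hloc')
    exact not_isFifthRoot hca (dvd_neg.mpr h5) (neg_ne_zero.mpr ha) m n hmn
  · obtain ⟨m, n, hmn⟩ := exists_isFifthRoot hac h5 (five_dvd_padicValInt_formQ hac h5 hH hloc)
    exact not_isFifthRoot hac h5 hc m n hmn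

end FA.TwentyFive

end
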