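import Fermat.Agent.TwentyFive.Defs
import Mathlib.RingTheory.Int.Basic
import Mathlib.Algebra.GCDMonoid.Nat
import Mathlib.Tactic.LinearCombination
import Mathlib.Tactic.Linarith
import Mathlib.Tactic.IntervalCases
import Mathlib.Tactic.Push
import Mathlib.Data.ZMod.Basic
import Mathlib.Tactic.Positivity
import Mathlib.Algebra.Ring.Int.Parity

/-!
# The descent on `y² = m⁴ + 10 m² n² + 5 n⁴`

There is no solution with `n` positive, even and of the form `5 k²` or `10 k²`, `m` odd, prime to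
`5 n`. Hence a fifth root of `a² - a c + φ² c²` with `5 ∣ c` forces `c = 0`.
-/

set_option autoImplicit false

namespace FA.TwentyFive

/-- `n` is `5` or `10` times a square. -/
def Nice (n : ℤ) : Prop := ∃ k : ℤ, n = 5 * k ^ 2 ∨ n = 10 * k ^ 2

/-- The quartic of the descent. -/
def formG (m n : ℤ) : ℤ := m ^ 4 + 10 * m ^ 2 * n ^ 2 + 5 * n ^ 4

theorem five_prime_int : Prime (5 : ℤ) := Int.prime_iff_natAbs_prime.mpr (by decide)

theorem isCoprime_five_iff {s : ℤ} : IsCoprime (5 : ℤ) s ↔ ¬ (5 : ℤ) ∣ s :=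
  five_prime_int.coprime_iff_not_dvd

/-- A factorisation into coprime parts of `5` times a fourth power. -/
theorem exists_fourth {P Q n : ℤ} (hP : 0 < P) (hQ : 0 < Q) (hn : 0 < n) (hc : IsCoprime P Q)
    (h : P * Q = 5 * n ^ 4) (h5 : (5 : ℤ) ∣ P) :
    ∃ r s : ℤ, P = 5 * r ^ 4 ∧ Q = s ^ 4 ∧ r * s = n ∧ 0 < r ∧ 0 < s ∧ IsCoprime r s ∧
      ¬ (5 : ℤ) ∣ s := by
  obtain ⟨P', rfl⟩ := h5
  have h' : P' * Q = n ^ 4 := by linarith [h]
  have hP' : 0 < P' := by linarith
  have hc' : IsCoprime P' Q := hc.of_mul_left_right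
  have habs : P'.natAbs * Q.natAbs = n.natAbs ^ 4 := by
    rw [← Int.natAbs_mul, h', Int.natAbs_pow]
  have hg : IsUnit (gcd P'.natAbs Q.natAbs) := Nat.isUnit_iff.mpr (Int.isCoprime_iff_nat_coprime.mp hc')
  obtain ⟨r, hr⟩ := exists_eq_pow_of_mul_eq_pow hg habs
  obtain ⟨s, hs⟩ := exists_eq_pow_of_mul_eq_pow
    (show IsUnit (gcd Q.natAbs P'.natAbs) by rwa [gcd_comm]) ((mul_comm _ _).trans habs)
  have eP : P' = (r : ℤ) ^ 4 := by
    rw [← Int.natAbs_of_nonneg hP'.le, hr]; push_cast; rfl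
  have eQ : Q = (s : ℤ) ^ 4 := by
    rw [← Int.natAbs_of_nonneg hQ.le, hs]; push_cast; rfl
  have hrs : r * s = n.natAbs := Nat.pow_left_injective (show 4 ≠ 0 by norm_num) (by
    simp only [mul_pow, ← hr, ← hs, habs])
  have hrs' : (r : ℤ) * s = n := by
    rw [← Int.natAbs_of_nonneg hn.le, ← hrs]; push_cast; rfl
  have hr0 : (r : ℤ) ≠ 0 := fun e => hn.ne' (by rw [← hrs', e, zero_mul])
  have hs0 : (s : ℤ) ≠ 0 := fun e => hn.ne' (by rw [← hrs', e, mul_zero])
  refine ⟨r, s, by rw [eP], eQ, hrs', by omega, by omega, ?_, ?_⟩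
  · rw [eP, eQ] at hc'
    exact (IsCoprime.pow_iff (by norm_num) (by norm_num)).mp hc'
  · exact fun hd => isCoprime_five_iff.mp hc.of_mul_left_left (eQ ▸ dvd_pow hd (by norm_num))

/-- `A² - y² = 20 n⁴` with `A > 0` prime to `5 n` makes `A = 5 r⁴ + s⁴`, `r s = n`. -/
theorem exists_split {A y n : ℤ} (hA : 0 < A) (hn : 0 < n) (hc : IsCoprime A (5 * n))
    (h : y ^ 2 = A ^ 2 - 20 * n ^ 4) :
    ∃ r s : ℤ, A = 5 * r ^ 4 + s ^ 4 ∧ r * s = n ∧ 0 < r ∧ 0 < s ∧ IsCoprime r s ∧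
      ¬ (5 : ℤ) ∣ s := by
  obtain ⟨P, hP⟩ : (2 : ℤ) ∣ A - y := by
    have h2 : (2 : ℤ) ∣ (A - y) * (A + y) := ⟨10 * n ^ 4, by linear_combination -h⟩
    rcases Int.prime_two.dvd_or_dvd h2 with h2 | h2
    · exact h2
    · have e : A - y = (A + y) - 2 * y := by ring
      rw [e]; exact dvd_sub h2 (dvd_mul_right 2 y)
  obtain ⟨Q, rfl⟩ : ∃ Q, A = P + Q := ⟨A - P, by ring⟩
  have hy : y = Q - P := by linarith
  have hPQ : P * Q = 5 * n ^ 4 := by subst hy; linarith [h]
  have hpos : 0 < P * Q := by rw [hPQ]; positivity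
  have hP0 : 0 < P := by
    rcases pos_and_pos_or_neg_and_neg_of_mul_pos hpos with h' | h' <;> linarith
  have hQ0 : 0 < Q := by
    rcases pos_and_pos_or_neg_and_neg_of_mul_pos hpos with h' | h' <;> linarith
  have hcPQ : IsCoprime P Q := by
    have h1 : IsCoprime (P + Q) (P * Q) := by
      rw [hPQ]; exact hc.of_mul_right_left.mul_right (hc.of_mul_right_right.pow_right)
    have h2 := h1.of_mul_right_right
    rwa [show P + Q = P + Q * 1 by ring, IsCoprime.add_mul_left_left_iff] at h2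
  rcases five_prime_int.dvd_or_dvd (⟨n ^ 4, hPQ⟩ : (5 : ℤ) ∣ P * Q) with h5 | h5
  · obtain ⟨r, s, e1, e2, hh⟩ := exists_fourth hP0 hQ0 hn hcPQ hPQ h5
    exact ⟨r, s, by rw [e1, e2], hh⟩
  · obtain ⟨r, s, e1, e2, hh⟩ := exists_fourth hQ0 hP0 hn hcPQ.symm (by rw [mul_comm, hPQ]) h5
    exact ⟨r, s, by rw [e1, e2, add_comm], hh⟩

/-- The prime to `5` part of a `Nice` number is a square, or twice a square. -/
theorem nice_split {r s : ℤ} (h : Nice (r * s)) (hr : 0 < r) (hs : 0 < s) (hc : IsCoprime r s)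
    (h5 : ¬ (5 : ℤ) ∣ s) (h2 : Odd s) : (∃ σ : ℤ, s = σ ^ 2) ∧ Nice r := by
  have c5 : IsCoprime (5 : ℤ) s := isCoprime_five_iff.mpr h5
  have c2 : IsCoprime (2 : ℤ) s := Int.prime_two.coprime_iff_not_dvd.mpr fun hd => by
    obtain ⟨j, rfl⟩ := hd; obtain ⟨i, hi⟩ := h2; omega
  obtain ⟨k, d, hd, hcd, e⟩ : ∃ k d : ℤ, (d = 5 ∨ d = 10) ∧ IsCoprime d s ∧ r * s = d * k ^ 2 := by
    obtain ⟨k, e | e⟩ := h
    · exact ⟨k, 5, Or.inl rfl, c5, e⟩
    · exact ⟨k, 10, Or.inr rfl, (show (10 : ℤ) = 2 * 5 by norm_num) ▸ c2.mul_left c5, e⟩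
  have hd0 : 0 < d := by rcases hd with rfl | rfl <;> norm_num
  obtain ⟨r', rfl⟩ : d ∣ r := hcd.dvd_of_dvd_mul_right ⟨k ^ 2, e⟩
  have e' : r' * s = k ^ 2 := mul_left_cancel₀ hd0.ne' (by rw [← mul_assoc, e])
  have hr' : 0 < r' := pos_of_mul_pos_right hr hd0.le
  have hc' : IsCoprime r' s := hc.of_mul_left_right
  have sq : ∀ {x y : ℤ}, 0 < x → IsCoprime x y → x * y = k ^ 2 → ∃ σ : ℤ, x = σ ^ 2 := by
    intro x y hx hxy hh
    obtain ⟨σ, hσ | hσ⟩ := Int.sq_of_isCoprime hxy hh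
    · exact ⟨σ, hσ⟩
    · exact absurd hx (not_lt.mpr (by rw [hσ]; nlinarith [sq_nonneg σ]))
  obtain ⟨ρ, rfl⟩ := sq hr' hc' e'
  refine ⟨sq hs hc'.symm (by rw [mul_comm, e']), ρ, ?_⟩
  rcases hd with rfl | rfl <;> simp

theorem Nice.half {r : ℤ} (h : Nice (2 * r)) : Nice r := by
  obtain ⟨k, e | e⟩ := h
  · obtain ⟨j, rfl⟩ : (2 : ℤ) ∣ k :=
      Int.prime_two.dvd_of_dvd_pow (show (2 : ℤ) ∣ k ^ 2 from
        ((Int.prime_two.coprime_iff_not_dvd.mpr (by decide) : IsCoprime (2 : ℤ) 5).dvd_of_dvd_mul_left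
          ⟨r, e.symm⟩))
    exact ⟨j, Or.inr (by linarith [e])⟩
  · exact ⟨k, Or.inl (by linarith)⟩

theorem odd_pow_four {x : ℤ} (h : Odd x) : ∃ i : ℤ, x ^ 4 = 16 * i + 1 := by
  obtain ⟨j, rfl⟩ := h
  obtain ⟨i, hi⟩ := Int.even_mul_succ_self j
  exact ⟨i * (2 * j ^ 2 + 2 * j + 1), by
    linear_combination (8 * (2 * j ^ 2 + 2 * j + 1)) * hi⟩

/-- The branch with `s` even is impossible modulo `256`. -/
theorem false_of_formG_eq_sixteen {η g₀ σ : ℤ} (hη : Odd η) (hg : Odd g₀) (hσ : Odd σ)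
    (h : formG (η ^ 2) (5 * g₀ ^ 2) = 16 * σ ^ 4) : False := by
  obtain ⟨i, hi⟩ := odd_pow_four hη
  obtain ⟨j, hj⟩ := odd_pow_four hg
  obtain ⟨k, hk⟩ := odd_pow_four hσ
  have e : formG (η ^ 2) (5 * g₀ ^ 2) =
      (η ^ 4) ^ 2 + 250 * η ^ 4 * g₀ ^ 4 + 3125 * (g₀ ^ 4) ^ 2 := by
    simp only [formG]; ring
  rw [e, hi, hj, hk] at h
  have : 16 * i ^ 2 + 252 * i + 4000 * (i * j) + 50000 * j ^ 2 + 6500 * j + 210 = 16 * k := by
    linarith
  omega

theorem zmod_five {s : ℤ} (h : ¬ (5 : ℤ) ∣ s) : (s : ZMod 5) ≠ 0 := fun e =>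
  h ((ZMod.intCast_zmod_eq_zero_iff_dvd s 5).mp e)

/-- **The descent.** -/
theorem descent_step {m n y : ℤ} (hn : 0 < n) (hn2 : Even n) (hm2 : Odd m) (hnice : Nice n)
    (hmn : IsCoprime m n) (hm5 : ¬ (5 : ℤ) ∣ m) (hy : formG m n = y ^ 2) :
    ∃ m' n' y' : ℤ, 0 < n' ∧ n' < n ∧ Even n' ∧ Odd m' ∧ Nice n' ∧ IsCoprime m' n' ∧
      ¬ (5 : ℤ) ∣ m' ∧ formG m' n' = y' ^ 2 := by
  have hc : IsCoprime (m ^ 2 + 5 * n ^ 2) (5 * n) := by
    refine IsCoprime.mul_right ?_ ?_
    · rw [show m ^ 2 + 5 * n ^ 2 = m ^ 2 + 5 * n ^ 2 by rfl, IsCoprime.add_mul_left_left_iff]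
      exact (isCoprime_five_iff.mpr hm5).symm.pow_left
    · rw [show m ^ 2 + 5 * n ^ 2 = m ^ 2 + n * (5 * n) by ring, IsCoprime.add_mul_left_left_iff]
      exact hmn.pow_left
  obtain ⟨r, s, hA, hrs, hr, hs, hcrs, hs5⟩ := exists_split (A := m ^ 2 + 5 * n ^ 2) (y := y)
    (by positivity) hn hc (by rw [← hy]; simp only [formG]; ring)
  subst hrs
  have hm : m ^ 2 = s ^ 4 - 5 * r ^ 2 * s ^ 2 + 5 * r ^ 4 := by linear_combination hA
  rcases Int.even_or_odd s with hse | hso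
  · -- `s` even: impossible
    exfalso
    obtain ⟨s', rfl⟩ := hse
    have hro : Odd r := by
      rcases Int.even_or_odd r with ⟨r', rfl⟩ | h
      · exfalso
        have h2 : IsCoprime (2 : ℤ) 2 := (hcrs.of_isCoprime_of_dvd_left ⟨r', by ring⟩)
          |>.of_isCoprime_of_dvd_right ⟨s', by ring⟩
        have h3 := isCoprime_self.mp h2
        rw [Int.isUnit_iff] at h3; omega
      · exact h
    obtain ⟨j, hj⟩ := hm2
    obtain ⟨i, hi⟩ := odd_pow_four hro
    have hs' : Odd s' := by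
      by_contra hne
      obtain ⟨t, rfl⟩ := Int.not_odd_iff_even.mp hne
      obtain ⟨l, hl⟩ := Int.even_mul_succ_self j
      rw [hj, hi] at hm
      have : 8 * l + 1 = 256 * t ^ 4 - 80 * (r ^ 2 * t ^ 2) + 80 * i + 5 := by nlinarith [hm, hl]
      omega
    have h5r : Nice (r * 2) ∧ ∃ σ : ℤ, s' = σ ^ 2 := by
      have hsp := nice_split (r := r * 2) (s := s') (by rwa [show r * (s' + s') = r * 2 * s' by ring] at hnice)
        (by linarith) (by linarith)
        ((hcrs.of_isCoprime_of_dvd_right ⟨2, by ring⟩).mul_left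
          (Int.prime_two.coprime_iff_not_dvd.mpr fun hd => by
            obtain ⟨u, rfl⟩ := hd; obtain ⟨w, hw⟩ := hs'; omega))
        (fun hd => hs5 (by rw [← two_mul]; exact hd.mul_left 2)) hs'
      exact ⟨hsp.2, hsp.1⟩
    obtain ⟨hr10, σ, rfl⟩ := h5r
    have hr5 : Nice r := Nice.half (by rwa [mul_comm])
    have hA' : IsCoprime (2 * (8 * σ ^ 4 - 5 * r ^ 2)) (5 * r) := by
      refine IsCoprime.mul_left ?_ (IsCoprime.mul_right ?_ ?_)
      · refine Int.prime_two.coprime_iff_not_dvd.mpr fun hd => ?_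
        obtain ⟨u, hu⟩ := hd; obtain ⟨w, rfl⟩ := hro; omega
      · rw [show (8 * σ ^ 4 - 5 * r ^ 2 : ℤ) = 2 * (2 * σ ^ 2) ^ 2 + 5 * (-r ^ 2) by ring,
          IsCoprime.add_mul_left_left_iff]
        refine IsCoprime.mul_left (⟨-2, 1, by norm_num⟩ : IsCoprime (2 : ℤ) 5) ?_
        refine IsCoprime.pow_left ?_
        rw [show (2 * σ ^ 2 : ℤ) = σ ^ 2 + σ ^ 2 by ring]
        exact (isCoprime_five_iff.mpr hs5).symm
      · rw [show (8 * σ ^ 4 - 5 * r ^ 2 : ℤ) = 2 * (2 * σ ^ 2) ^ 2 + r * (-5 * r) by ring,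
          IsCoprime.add_mul_left_left_iff]
        refine IsCoprime.mul_left ?_ ?_
        · refine Int.prime_two.coprime_iff_not_dvd.mpr fun hd => ?_
          obtain ⟨u, hu⟩ := hd; obtain ⟨w, rfl⟩ := hro; omega
        · refine IsCoprime.pow_left ?_
          rw [show (2 * σ ^ 2 : ℤ) = σ ^ 2 + σ ^ 2 by ring]
          exact hcrs.symm
    have heq : (4 * m) ^ 2 = (2 * (8 * σ ^ 4 - 5 * r ^ 2)) ^ 2 - 20 * r ^ 4 := by
      linear_combination 16 * hm
    rcases lt_or_gt_of_ne (show (2 * (8 * σ ^ 4 - 5 * r ^ 2) : ℤ) ≠ 0 by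
      intro h0
      rw [h0, isCoprime_zero_left, Int.isUnit_iff] at hA'
      omega) with hneg | hpos
    · obtain ⟨g, h, hAg, hgh, -⟩ := exists_split (A := -(2 * (8 * σ ^ 4 - 5 * r ^ 2))) (y := 4 * m)
        (n := r) (by linarith) hr hA'.neg_left (by rw [heq]; ring)
      subst hgh
      rw [Int.odd_mul] at hro
      obtain ⟨⟨u, rfl⟩, ⟨w, rfl⟩⟩ := hro
      obtain ⟨u', hu⟩ := Int.even_mul_succ_self u
      obtain ⟨w', hw⟩ := Int.even_mul_succ_self w
      have hu4 : (2 * u + 1) ^ 2 = 8 * u' + 1 := by linear_combination 4 * hu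
      have hw4 : (2 * w + 1) ^ 2 = 8 * w' + 1 := by linear_combination 4 * hw
      have : -(16 * σ ^ 4) = 5 * (8 * u' + 1) ^ 2 - 10 * (8 * u' + 1) * (8 * w' + 1) +
          (8 * w' + 1) ^ 2 := by rw [← hu4, ← hw4]; linear_combination hAg
      ring_nf at this
      omega
    · obtain ⟨g, h, hAg, hgh, hg, hh, hcgh, hh5⟩ := exists_split (y := 4 * m) (n := r) hpos hr hA'
        heq
      subst hgh
      rw [Int.odd_mul] at hro
      obtain ⟨⟨η, rfl⟩, g₀, hg₀⟩ := nice_split hr5 hg hh hcgh hh5 hro.2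
      rcases hg₀ with rfl | rfl
      · refine false_of_formG_eq_sixteen (η := η) (g₀ := g₀) (σ := σ) ?_ ?_ ?_ ?_
        · exact (Int.odd_pow' (by norm_num)).mp hro.2
        · exact (Int.odd_pow' (by norm_num)).mp (Int.odd_mul.mp hro.1).2
        · exact (Int.odd_pow' (by norm_num)).mp hs'
        · simp only [formG]; linear_combination -hAg
      · obtain ⟨w, hw⟩ := hro.1
        omega
  · -- `s` odd: a smaller solution
    obtain ⟨⟨σ, rfl⟩, hr5⟩ := nice_split hnice hr hs hcrs hs5 hso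
    have hre : Even r := (Int.even_mul.mp hn2).resolve_right (Int.not_even_iff_odd.mpr hso)
    obtain ⟨ρ, rfl⟩ := hre
    rw [← two_mul] at hr5 hr hcrs hm
    have hρ5 := hr5.half
    have hρ : 0 < ρ := by linarith
    have hsq : (σ ^ 2) ^ 2 ≠ 10 * ρ ^ 2 := fun e => hs5
      (five_prime_int.dvd_of_dvd_pow (n := 2) ⟨2 * ρ ^ 2, by rw [e]; ring⟩)
    have hA' : IsCoprime ((σ ^ 2) ^ 2 - 10 * ρ ^ 2) (5 * ρ) := by
      refine IsCoprime.mul_right ?_ ?_
      · rw [show ((σ ^ 2) ^ 2 - 10 * ρ ^ 2 : ℤ) = (σ ^ 2) ^ 2 + 5 * (-2 * ρ ^ 2) by ring,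
          IsCoprime.add_mul_left_left_iff]
        exact (isCoprime_five_iff.mpr hs5).symm.pow_left
      · rw [show ((σ ^ 2) ^ 2 - 10 * ρ ^ 2 : ℤ) = (σ ^ 2) ^ 2 + ρ * (-10 * ρ) by ring,
          IsCoprime.add_mul_left_left_iff]
        exact hcrs.of_mul_left_right.symm.pow_left
    have heq : m ^ 2 = ((σ ^ 2) ^ 2 - 10 * ρ ^ 2) ^ 2 - 20 * ρ ^ 4 := by rw [hm]; ring
    rcases lt_or_gt_of_ne (show ((σ ^ 2) ^ 2 - 10 * ρ ^ 2 : ℤ) ≠ 0 from sub_ne_zero.mpr hsq)
      with hneg | hpos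
    · exfalso
      obtain ⟨g, h, hAg, hgh, -, -, -, hh5⟩ := exists_split
        (A := -((σ ^ 2) ^ 2 - 10 * ρ ^ 2)) (y := m) (n := ρ) (by linarith) hρ hA'.neg_left
        (by rw [heq]; ring)
      subst hgh
      have e := congrArg (fun z : ℤ => (z : ZMod 5)) hAg
      have hσ0 : (σ : ZMod 5) ≠ 0 := zmod_five fun hd => hs5 (dvd_pow hd two_ne_zero)
      have hh0 := zmod_five hh5
      simp only [Int.cast_neg, Int.cast_sub, Int.cast_add, Int.cast_mul, Int.cast_pow,
        Int.cast_ofNat] at e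
      revert hσ0 hh0 e
      generalize (σ : ZMod 5) = a
      generalize (h : ZMod 5) = b
      generalize (g : ZMod 5) = c
      revert a b c
      decide
    · obtain ⟨g, h, hAg, hgh, hg, hh, hcgh, hh5⟩ := exists_split (y := m) (n := ρ) hpos hρ hA' heq
      subst hgh
      have key : formG h g = (σ ^ 2) ^ 2 := by simp only [formG]; linear_combination -hAg
      have hho : Odd h := by
        by_contra hne
        obtain ⟨w, rfl⟩ := Int.not_odd_iff_even.mp hne
        have hgo : Odd g := by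
          rcases Int.even_or_odd g with ⟨g', rfl⟩ | h'
          · exfalso
            have h3 := isCoprime_self.mp ((hcgh.of_isCoprime_of_dvd_left
              (x := 2) ⟨g', by ring⟩).of_isCoprime_of_dvd_right (z := 2) ⟨w, by ring⟩)
            rw [Int.isUnit_iff] at h3; omega
          · exact h'
        obtain ⟨i, hi⟩ := odd_pow_four hgo
        obtain ⟨j, hj⟩ := odd_pow_four ((Int.odd_pow' two_ne_zero).mp hso)
        simp only [formG] at key
        rw [hi, show (σ ^ 2) ^ 2 = σ ^ 4 by ring, hj] at key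
        ring_nf at key
        omega
      have hge : Even g := by
        by_contra hne
        rw [Int.not_even_iff_odd] at hne
        have h1 : Even (formG h g) := by
          simp only [formG]
          rw [Int.even_add, Int.even_add]
          simp [Int.even_pow, Int.even_mul, Int.not_even_iff_odd.mpr hne,
            Int.not_even_iff_odd.mpr hho]
          decide
        rw [key] at h1
        exact Int.not_even_iff_odd.mpr (hso.pow) h1
      refine ⟨h, g, σ ^ 2, hg, ?_, hge, hho, (nice_split hρ5 hg hh hcgh hh5 hho).2, hcgh.symm,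
        hh5, key⟩
      have h1 : g ≤ g * h := le_mul_of_one_le_right hg.le hh
      have h2 : g * h < (g * h + g * h) * σ ^ 2 := by
        nlinarith [mul_pos hg hh, hs]
      linarith

/-- There is no solution. -/
theorem no_solution_formG (N : ℕ) : ∀ m n y : ℤ, n.natAbs ≤ N → 0 < n → Even n → Odd m → Nice n →
    IsCoprime m n → ¬ (5 : ℤ) ∣ m → formG m n ≠ y ^ 2 := by
  induction N with
  | zero => intro m n y h hn; omega
  | succ N ih =>
    intro m n y h hn hn2 hm2 hnice hmn hm5 hy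
    obtain ⟨m', n', y', h1, h2, h3, h4, h5, h6, h7, h8⟩ :=
      descent_step hn hn2 hm2 hnice hmn hm5 hy
    exact ih m' n' y' (by omega) h1 h3 h4 h5 h6 h7 h8

theorem isCoprime_formG {m n : ℤ} (h5 : ¬ (5 : ℤ) ∣ m) (hmn : IsCoprime m n) :
    IsCoprime (5 * n) (formG m n) := by
  refine IsCoprime.mul_left ?_ ?_
  · rw [show formG m n = m ^ 4 + 5 * (2 * m ^ 2 * n ^ 2 + n ^ 4) by simp only [formG]; ring,
      IsCoprime.add_mul_left_right_iff]
    exact (isCoprime_five_iff.mpr h5).pow_right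
  · rw [show formG m n = m ^ 4 + n * (10 * m ^ 2 * n + 5 * n ^ 3) by simp only [formG]; ring,
      IsCoprime.add_mul_left_right_iff]
    exact hmn.symm.pow_right

/-- **No fifth root**: with `5 ∣ c`, `c ≠ 0`, the quadratic form is no fifth power. -/
theorem not_isFifthRoot {a c : ℤ} (hac : IsCoprime a c) (h5 : (5 : ℤ) ∣ c) (hc0 : c ≠ 0)
    (m n : ℤ) : ¬ IsFifthRoot a c m n := by
  rintro ⟨h1, h2⟩
  have h2' : 5 * n * formG m n = (4 * c) ^ 2 := by simp only [formG]; linear_combination h2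
  have hn : 0 < n := by
    have hG : 0 ≤ formG m n := by simp only [formG]; positivity
    have : 0 < 5 * n * formG m n := by rw [h2']; positivity
    by_contra hle
    nlinarith [mul_nonpos_iff.mpr (Or.inr ⟨(by linarith : 5 * n ≤ 0), hG⟩)]
  have ha5 : ¬ (5 : ℤ) ∣ a := fun h => by
    have := isCoprime_five_iff.mp ((hac.of_isCoprime_of_dvd_left h)) h5
    exact this
  have hz : (m : ZMod 5) ^ 2 = 4 ∧ (m : ZMod 5) ≠ 0 := by
    have e := congrArg (fun z : ℤ => (z : ZMod 5)) h1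
    simp only [Int.cast_add, Int.cast_mul, Int.cast_pow, Int.cast_sub, Int.cast_ofNat] at e
    rw [(ZMod.intCast_zmod_eq_zero_iff_dvd c 5).mpr h5] at e
    have ha := zmod_five ha5
    revert e ha
    generalize (m : ZMod 5) = x
    generalize (n : ZMod 5) = z
    generalize (a : ZMod 5) = w
    revert x z w
    decide
  have hm5 : ¬ (5 : ℤ) ∣ m := fun h => hz.2 ((ZMod.intCast_zmod_eq_zero_iff_dvd m 5).mpr h)
  have hodd : ∀ p : ℤ, Prime p → p ∣ m → p ∣ n → p ∣ 2 := by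
    intro p hp hpm hpn
    by_contra hp2
    have h16 : ¬ p ∣ 16 := fun h => hp2 (hp.dvd_of_dvd_pow (show p ∣ (2 : ℤ) ^ 4 from h))
    have hpc : p ∣ c := by
      have : p ∣ 16 * c ^ 2 := by
        rw [← h2]
        exact dvd_add (dvd_add ((hpn.mul_left _)) ((dvd_pow hpn (by norm_num)).mul_left _))
          ((dvd_pow hpn (by norm_num)).mul_left _)
      exact hp.dvd_of_dvd_pow ((hp.dvd_or_dvd this).resolve_left h16)
    have hpa : p ∣ a := by
      have h' : p ∣ 16 * (2 * a ^ 2 - 2 * a * c + 3 * c ^ 2) := by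
        rw [← h1]
        exact dvd_add (dvd_add (dvd_pow hpm (by norm_num)) ((hpn.pow (by norm_num)).mul_left _))
          ((hpn.pow (by norm_num)).mul_left _)
      have h'' := (hp.dvd_or_dvd h').resolve_left h16
      rw [show 2 * a ^ 2 - 2 * a * c + 3 * c ^ 2 = 2 * a ^ 2 + c * (3 * c - 2 * a) by ring,
        dvd_add_left (hpc.mul_right _)] at h''
      exact hp.dvd_of_dvd_pow ((hp.dvd_or_dvd h'').resolve_left hp2)
    exact hp.not_isUnit (hac.isUnit_of_dvd' hpa hpc)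
  have hpar : (Odd m ∧ Odd n) ∨ (Even m ∧ Even n) := by
    have e : Even (m ^ 5 + 50 * m ^ 3 * n ^ 2 + 125 * m * n ^ 4) := by
      rw [h1]; exact (Even.mul_right (by decide) _)
    have e2 : Even (5 * m ^ 4 * n + 50 * m ^ 2 * n ^ 3 + 25 * n ^ 5) := by
      rw [h2]; exact (Even.mul_right (by decide) _)
    rcases Int.even_or_odd m with hm | hm <;> rcases Int.even_or_odd n with hn' | hn'
    · exact Or.inr ⟨hm, hn'⟩
    · exfalso
      rw [← Int.not_odd_iff_even] at e2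
      exact e2 (by
        rw [← Int.not_even_iff_odd]
        simp [Int.even_add, Int.even_mul, Int.even_pow, hm, Int.not_even_iff_odd.mpr hn']
        decide)
    · exfalso
      rw [← Int.not_odd_iff_even] at e
      exact e (by
        rw [← Int.not_even_iff_odd]
        simp [Int.even_add, Int.even_pow, hn', Int.not_even_iff_odd.mpr hm])
    · exact Or.inl ⟨hm, hn'⟩
  rcases hpar with ⟨hmo, hno⟩ | ⟨⟨m', rfl⟩, ⟨n', rfl⟩⟩
  · have hmn : IsCoprime m n := by
      refine isCoprime_of_prime_dvd (by rintro ⟨rfl, -⟩; simp at hmo) fun p hp hpm hpn => ?_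
      obtain ⟨w, hw⟩ := hmo
      have h2 : p ∣ 1 := by
        have := dvd_sub hpm (((hodd p hp hpm hpn).mul_right w))
        rwa [hw, add_sub_cancel_left] at this
      exact hp.not_dvd_one h2
    obtain ⟨y, hy⟩ : ∃ y, formG m n = y ^ 2 := by
      obtain ⟨y, hy | hy⟩ := Int.sq_of_isCoprime (isCoprime_formG hm5 hmn).symm
        (by rw [mul_comm]; exact h2')
      · exact ⟨y, hy⟩
      · refine ⟨0, ?_⟩
        have h0 : (0 : ℤ) ≤ formG m n := by simp only [formG]; positivity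
        nlinarith [sq_nonneg y]
    obtain ⟨r, s, hA, -, -, -, -, hs5⟩ := exists_split (A := m ^ 2 + 5 * n ^ 2) (y := y) (n := n)
      (by positivity) hn
      (by
        refine IsCoprime.mul_right ?_ ?_
        · rw [IsCoprime.add_mul_left_left_iff]
          exact (isCoprime_five_iff.mpr hm5).symm.pow_left
        · rw [show m ^ 2 + 5 * n ^ 2 = m ^ 2 + n * (5 * n) by ring,
            IsCoprime.add_mul_left_left_iff]
          exact hmn.pow_left)
      (by rw [← hy]; simp only [formG]; ring)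
    have e := congrArg (fun z : ℤ => (z : ZMod 5)) hA
    simp only [Int.cast_add, Int.cast_mul, Int.cast_pow, Int.cast_ofNat] at e
    have hs := zmod_five hs5
    obtain ⟨hz1, -⟩ := hz
    rw [hz1] at e
    revert e hs
    generalize (n : ZMod 5) = z
    generalize (r : ZMod 5) = x
    generalize (s : ZMod 5) = w
    revert x z w
    decide
  · simp only [← two_mul] at *
    have hc2' : c ^ 2 = 10 * n' * formG m' n' :=
      mul_left_cancel₀ (show (16 : ℤ) ≠ 0 by norm_num) (by simp only [formG]; linear_combination -h2)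
    have h1' : 2 * (m' ^ 5 + 50 * m' ^ 3 * n' ^ 2 + 125 * m' * n' ^ 4) =
        2 * a ^ 2 - 2 * a * c + 3 * c ^ 2 :=
      mul_left_cancel₀ (show (16 : ℤ) ≠ 0 by norm_num) (by linear_combination h1)
    obtain ⟨c', rfl⟩ : (2 : ℤ) ∣ c := Int.prime_two.dvd_of_dvd_pow
      (n := 2) ⟨5 * n' * formG m' n', by rw [hc2']; ring⟩
    have hao : Odd a := by
      by_contra hne
      obtain ⟨w, rfl⟩ := Int.not_odd_iff_even.mp hne
      exact Int.prime_two.not_isUnit (hac.isUnit_of_dvd' ⟨w, by ring⟩ ⟨c', rfl⟩)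
    have hne : Odd (m' + n') := by
      by_contra hne
      obtain ⟨u, hu⟩ := Int.not_odd_iff_even.mp hne
      obtain ⟨w, rfl⟩ := hao
      obtain rfl : m' = u + u - n' := by linarith
      obtain ⟨i, rfl | rfl⟩ := Int.even_or_odd' n' <;>
        · ring_nf at h1'
          omega
    have hn' : 0 < n' := by linarith
    have hm5' : ¬ (5 : ℤ) ∣ m' := fun h => hm5 (h.mul_left 2)
    have hmn' : IsCoprime m' n' := by
      refine isCoprime_of_prime_dvd (by rintro ⟨-, rfl⟩; simp at hn') fun p hp hpm hpn => ?_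
      have h2 := hodd p hp (hpm.mul_left 2) (hpn.mul_left 2)
      obtain ⟨w, hw⟩ := hne
      have : p ∣ 1 := by
        have h3 := dvd_sub (dvd_add hpm hpn) (h2.mul_right w)
        rwa [hw, add_sub_cancel_left] at h3
      exact hp.not_dvd_one this
    have hGodd : Odd (formG m' n') := by
      have : formG m' n' = (m' + n') ^ 4 + 2 * (2 * n' ^ 4 - 2 * m' ^ 3 * n' + 2 * m' ^ 2 * n' ^ 2 -
        2 * m' * n' ^ 3) := by simp only [formG]; ring
      rw [this]
      exact (hne.pow).add_even (even_two_mul _)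
    have hcop : IsCoprime (10 * n') (formG m' n') := by
      rw [show (10 : ℤ) * n' = 2 * (5 * n') by ring]
      refine IsCoprime.mul_left (Int.prime_two.coprime_iff_not_dvd.mpr fun hd => ?_)
        (isCoprime_formG hm5' hmn')
      exact Int.not_even_iff_odd.mpr hGodd (even_iff_two_dvd.mpr hd)
    obtain ⟨d, hd | hd⟩ := Int.sq_of_isCoprime hcop hc2'.symm
    swap
    · nlinarith [sq_nonneg d]
    obtain ⟨k, rfl⟩ : (10 : ℤ) ∣ d := by
      have e2 : (2 : ℤ) ∣ d := Int.prime_two.dvd_of_dvd_pow (n := 2) ⟨5 * n', by rw [← hd]; ring⟩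
      have e5 : (5 : ℤ) ∣ d := five_prime_int.dvd_of_dvd_pow (n := 2) ⟨2 * n', by rw [← hd]; ring⟩
      omega
    obtain rfl : n' = 10 * k ^ 2 := by linarith
    obtain ⟨y, hy | hy⟩ := Int.sq_of_isCoprime hcop.symm (by rw [mul_comm]; exact hc2'.symm)
    swap
    · exact absurd hGodd (by
        have h0 : (0 : ℤ) ≤ formG m' (10 * k ^ 2) := by simp only [formG]; positivity
        have : formG m' (10 * k ^ 2) = 0 := by nlinarith [sq_nonneg y]
        rw [this]; decide)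
    refine no_solution_formG (10 * k ^ 2).natAbs m' _ y le_rfl hn' ⟨5 * k ^ 2, by ring⟩ ?_
      ⟨k, Or.inr rfl⟩ hmn' hm5' hy
    by_contra hne'
    obtain ⟨w, rfl⟩ := Int.not_odd_iff_even.mp hne'
    obtain ⟨v, hv⟩ := hne
    omega

end FA.TwentyFive
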