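import Fermat.Agent.TwentyFive.Family
import Fermat.Agent.Local.Basic
import Mathlib.RingTheory.Valuation.ValuationSubring

/-!
# The chain of lines is integral

At a place where `A` and `C` are units and `P` has `5 P = T`, no multiple of `P` prime to `5`
reduces to zero or to `± T`, so the chain has integral entries and reduces.
-/

set_option autoImplicit false
set_option linter.unusedSectionVars false

noncomputable section

open WeierstrassCurve FA.Local

namespace FA.TwentyFive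

/-- The image of a chain. -/
def Chain.map {R S : Type*} [CommRing R] [CommRing S] {A C : R} (D : Chain A C) (φ : R →+* S) :
    Chain (φ A) (φ C) where
  x1 := φ D.x1
  y1 := φ D.y1
  x2 := φ D.x2
  y2 := φ D.y2
  x4 := φ D.x4
  y4 := φ D.y4
  l2 := φ D.l2
  n2 := φ D.n2
  l4 := φ D.l4
  n4 := φ D.n4
  l := φ D.l
  eq1 := by simpa [famEq] using congrArg φ D.eq1
  eq2 := by simpa [famEq] using congrArg φ D.eq2
  eq4 := by simpa [famEq] using congrArg φ D.eq4
  line2 := ⟨by simpa using congrArg φ D.line2.e1, by simpa [map_ofNat] using congrArg φ D.line2.e2,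
    by simpa using congrArg φ D.line2.e3⟩
  on2 := by simpa using congrArg φ D.on2
  on2' := by simpa [negF] using congrArg φ D.on2'
  line4 := ⟨by simpa using congrArg φ D.line4.e1, by simpa [map_ofNat] using congrArg φ D.line4.e2,
    by simpa using congrArg φ D.line4.e3⟩
  on4 := by simpa using congrArg φ D.on4
  on4' := by simpa [negF] using congrArg φ D.on4'
  line := ⟨by simpa using congrArg φ D.line.e1, by simpa [map_ofNat] using congrArg φ D.line.e2,
    by simpa using congrArg φ D.line.e3⟩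
  on1 := by simpa using congrArg φ D.on1
  on4'' := by simpa using congrArg φ D.on4''

variable {K Γ : Type*} [Field K] [LinearOrderedCommGroupWithZero Γ] {v : Valuation K Γ}
  {A C : K}

theorem intCoeff_famW (hA : v A = 1) (hC : v C = 1) : IntCoeff v (famW A C).toAffine where
  h₁ := v.map_sub_le hC.le hA.le
  h₂ := by simp [famW, hA, hC]
  h₃ := by simp [famW, hA, hC]
  h₄ := by simp [famW]
  h₆ := by simp [famW]

theorem le_one_of_quadratic {l a b : K} (ha : v a ≤ 1) (hb : v b ≤ 1)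
    (h : v (l ^ 2 + a * l + b) ≤ 1) : v l ≤ 1 := by
  by_contra hc
  rw [not_le] at hc
  have h2 : v l < v (l ^ 2) := by
    rw [map_pow, sq]; exact lt_mul_of_one_lt_left (zero_lt_one.trans hc) hc
  have h1 : v (a * l + b) < v (l ^ 2) := by
    refine lt_of_le_of_lt (v.map_add_le ?_ (hb.trans hc.le)) h2
    rw [map_mul]; exact mul_le_of_le_one_left' ha
  rw [add_assoc, v.map_add_eq_of_lt_left h1, map_pow] at h
  exact absurd (one_lt_pow₀ hc two_ne_zero) (not_lt.mpr h)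

variable [DecidableEq K] {h0 : (famW A C).toAffine.Nonsingular 0 0} {P : (famW A C).toAffine.Point}

theorem not_e1_nsmul (hA : v A = 1) (hC : v C = 1) (hP : addOrderOf P = 25)
    (hT : 5 • P = Affine.Point.some 0 0 h0) {k : ℕ} (hk : ¬ 5 ∣ k) :
    ¬ E1 v (famW A C).toAffine (k • P) := by
  intro h
  obtain ⟨j, -, hj⟩ := Nat.exists_mul_mod_eq_one_of_coprime
    ((Nat.prime_five.coprime_iff_not_dvd.mpr hk).symm) (by norm_num : 1 < 5)
  have h1 := e1_nsmul (intCoeff_famW hA hC) (e1_nsmul (intCoeff_famW hA hC) h j) 5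
  have h25 : 25 • P = 0 := hP ▸ addOrderOf_nsmul_eq_zero P
  rw [← mul_nsmul, ← mul_nsmul, show k * (j * 5) = 25 * (k * j / 5) + 5 * 1 by
    rw [show k * (j * 5) = k * j * 5 by ring]; omega,
    add_nsmul, mul_nsmul, h25, nsmul_zero, zero_add, mul_one, hT, e1_some, map_zero] at h1
  exact not_lt_of_ge zero_le h1

/-- Multiples prime to `5` have integral abscissa, a unit. -/
theorem val_abscissa (hA : v A = 1) (hC : v C = 1) (hP : addOrderOf P = 25)
    (hT : 5 • P = Affine.Point.some 0 0 h0) {k : ℕ} (hk : ¬ 5 ∣ k) (hk5 : k < 5)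
    {x y : K} {h : (famW A C).toAffine.Nonsingular x y} (e : k • P = .some x y h) :
    v x = 1 ∧ v y ≤ 1 := by
  have hI := intCoeff_famW hA hC
  have hx : v x ≤ 1 := not_lt.mp fun hc => not_e1_nsmul hA hC hP hT hk (by rw [e]; exact hc)
  have hy : v y ≤ 1 := le_y_of_le_x hI h.1 hx
  refine ⟨eq_one_of_not_lt hx fun hlt => ?_, hy⟩
  have hns : ∀ y', y' = 0 ∨ y' = A * C ^ 2 → NsRed v (famW A C).toAffine 0 y' := by
    rintro y' (rfl | rfl) <;> left <;> simp only [fy, famW, mul_zero, add_zero, zero_add]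
    · rw [v.map_neg, map_mul, map_pow, hA, hC, one_pow, one_mul]
    · rw [show 2 * (A * C ^ 2) + -(A * C ^ 2) = A * C ^ 2 by ring, map_mul, map_pow, hA, hC,
        one_pow, one_mul]
  have heq : y * (y - A * C ^ 2) = x * (x ^ 2 - A * C * x - (C - A) * y) := by
    have := famEq_iff.mp h.1
    simp only [famEq] at this
    linear_combination this
  have hlt' : v (y * (y - A * C ^ 2)) < 1 := by
    rw [heq]
    refine map_mul_lt_one' hlt (v.map_sub_le (v.map_sub_le (map_pow_le_one hx 2)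
      (map_mul_le_one (by simp [hA, hC]) hx)) (map_mul_le_one hI.h₁ hy))
  have hx0 : v ((0 : K) - x) < 1 := by rwa [zero_sub, v.map_neg]
  have hz : v (0 : K) ≤ 1 := by simp
  by_cases hy0 : v y < 1
  · have h1 := e1_sub_of_congr hI h0 h hz (hns 0 (Or.inl rfl)) hx0
      (by rwa [zero_sub, v.map_neg])
    rw [← hT, ← e, sub_eq_add_neg, ← sub_nsmul _ hk5.le] at h1
    exact not_e1_nsmul hA hC hP hT (by omega : ¬ 5 ∣ 5 - k) h1
  · have hy1 : v (A * C ^ 2 - y) < 1 := by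
      rw [map_mul, eq_one_of_not_lt hy hy0, one_mul] at hlt'
      rwa [v.map_sub_swap]
    obtain ⟨h', e'⟩ := neg_origin (A := A) (C := C) (h0 := h0)
    have h1 := e1_sub_of_congr hI h' h hz (hns _ (Or.inr rfl)) hx0 hy1
    rw [← e', ← hT, ← e, ← neg_add', e1_neg, ← add_nsmul] at h1
    exact not_e1_nsmul hA hC hP hT (by omega : ¬ 5 ∣ 5 + k) h1

/-- All entries are integral. -/
structure Chain.IsIntegral (v : Valuation K Γ) (D : Chain A C) : Prop where
  hx1 : v D.x1 ≤ 1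
  hy1 : v D.y1 ≤ 1
  hx2 : v D.x2 = 1
  hy2 : v D.y2 ≤ 1
  hx4 : v D.x4 = 1
  hy4 : v D.y4 ≤ 1
  hl2 : v D.l2 ≤ 1
  hn2 : v D.n2 ≤ 1
  hl4 : v D.l4 ≤ 1
  hn4 : v D.n4 ≤ 1
  hl : v D.l ≤ 1

theorem exists_integral_chain (hA : v A = 1) (hC : v C = 1) {x y : K}
    {h : (famW A C).toAffine.Nonsingular x y}
    (hP : addOrderOf (Affine.Point.some x y h : (famW A C).toAffine.Point) = 25)
    (hT : 5 • (Affine.Point.some x y h : (famW A C).toAffine.Point) = .some 0 0 h0) :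
    ∃ D : Chain A C, D.x1 = x ∧ D.y1 = y ∧ D.x2 ≠ 0 ∧ D.x4 ≠ 0 ∧ D.IsIntegral v := by
  obtain ⟨D, hx, hy, h2, h4, ⟨q2, e2⟩, q4, e4⟩ := exists_chain hP hT
  have hI := intCoeff_famW hA hC
  have v1 := val_abscissa hA hC hP hT (k := 1) (by norm_num) (by norm_num) (one_nsmul _)
  have v2 := val_abscissa hA hC hP hT (k := 2) (by norm_num) (by norm_num) e2
  have v4 := val_abscissa hA hC hP hT (k := 4) (by norm_num) (by norm_num) e4
  rw [← hx, ← hy] at v1
  have slope : ∀ {x₁ x₂ x₃ l n : K}, IsLine A C x₁ x₂ x₃ l n → v x₁ ≤ 1 → v x₂ ≤ 1 → v x₃ ≤ 1 →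
      v l ≤ 1 := fun {x₁ x₂ x₃ l n} L a1 a2 a3 => by
    refine le_one_of_quadratic (a := C - A) (b := A * C) hI.h₁ (by simp [hA, hC]) ?_
    rw [← L.e1]
    exact v.map_add_le (v.map_add_le a1 a2) a3
  have hl2 := slope D.line2 v1.1.le v1.1.le v2.1.le
  have hl4 := slope D.line4 v2.1.le v2.1.le v4.1.le
  refine ⟨D, hx, hy, h2, h4, v1.1.le, v1.2, v2.1, v2.2, v4.1, v4.2, hl2, ?_, hl4, ?_,
    slope D.line v1.1.le v4.1.le (by simp)⟩
  · rw [show D.n2 = D.y1 - D.l2 * D.x1 by rw [D.on2]; ring]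
    exact v.map_sub_le v1.2 (map_mul_le_one hl2 v1.1.le)
  · rw [show D.n4 = D.y2 - D.l4 * D.x2 by rw [D.on4]; ring]
    exact v.map_sub_le v2.2 (map_mul_le_one hl4 v2.1.le)

theorem val_U {D : Chain A C} (hA : v A = 1) (hC : v C = 1) (h2 : D.x2 ≠ 0) (h4 : D.x4 ≠ 0) :
    v D.U = 1 := by
  have e := congrArg v (D.U_pow (v.ne_zero_iff.mp (by rw [hA]; exact one_ne_zero))
    (v.ne_zero_iff.mp (by rw [hC]; exact one_ne_zero)) h2 h4)
  rw [map_pow, map_mul, map_pow, hA, hC, one_pow, one_mul] at e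
  exact (pow_eq_one_iff_of_nonneg zero_le (by norm_num)).mp e

section Residue

variable (v)

/-- The residue map of an integral element. -/
def red (z : K) (hz : v z ≤ 1) : IsLocalRing.ResidueField v.valuationSubring :=
  IsLocalRing.residue _ ⟨z, hz⟩

theorem red_eq_zero_iff {z : K} (hz : v z ≤ 1) : red v z hz = 0 ↔ v z < 1 := by
  rw [red, IsLocalRing.residue_eq_zero_iff, IsLocalRing.mem_maximalIdeal, mem_nonunits_iff]
  constructor
  · intro hnu
    refine lt_of_le_of_ne hz fun h1 => hnu ?_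
    have hz0 : z ≠ 0 := v.ne_zero_iff.mp (by rw [h1]; exact one_ne_zero)
    refine ⟨⟨⟨z, hz⟩, ⟨z⁻¹, show v z⁻¹ ≤ 1 by rw [map_inv₀, h1, inv_one]⟩,
      Subtype.ext (mul_inv_cancel₀ hz0), Subtype.ext (inv_mul_cancel₀ hz0)⟩, rfl⟩
  · rintro hlt ⟨u, hu⟩
    have e := congrArg (fun w : v.valuationSubring => v (w : K)) u.mul_inv
    simp only [MulMemClass.coe_mul, map_mul, hu, OneMemClass.coe_one, map_one] at e
    exact absurd e (mul_lt_one_of_nonneg_of_lt_one_left zero_le hlt (u.inv.2)).ne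

variable {v}

/-- The reduced chain. -/
def Chain.reduce (D : Chain A C) (hA : v A ≤ 1) (hC : v C ≤ 1) (hD : D.IsIntegral v) :
    Chain (red v A hA) (red v C hC) :=
  Chain.map (R := v.valuationSubring) (A := ⟨A, hA⟩) (C := ⟨C, hC⟩)
    { x1 := ⟨D.x1, hD.hx1⟩, y1 := ⟨D.y1, hD.hy1⟩, x2 := ⟨D.x2, hD.hx2.le⟩,
      y2 := ⟨D.y2, hD.hy2⟩, x4 := ⟨D.x4, hD.hx4.le⟩, y4 := ⟨D.y4, hD.hy4⟩,
      l2 := ⟨D.l2, hD.hl2⟩, n2 := ⟨D.n2, hD.hn2⟩, l4 := ⟨D.l4, hD.hl4⟩, n4 := ⟨D.n4, hD.hn4⟩,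
      l := ⟨D.l, hD.hl⟩
      eq1 := Subtype.ext D.eq1, eq2 := Subtype.ext D.eq2, eq4 := Subtype.ext D.eq4
      line2 := ⟨Subtype.ext D.line2.e1, Subtype.ext D.line2.e2, Subtype.ext D.line2.e3⟩
      on2 := Subtype.ext D.on2, on2' := Subtype.ext D.on2'
      line4 := ⟨Subtype.ext D.line4.e1, Subtype.ext D.line4.e2, Subtype.ext D.line4.e3⟩
      on4 := Subtype.ext D.on4, on4' := Subtype.ext D.on4'
      line := ⟨Subtype.ext (by push_cast; exact D.line.e1), Subtype.ext (by push_cast; exact D.line.e2),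
        Subtype.ext (by push_cast; exact D.line.e3)⟩
      on1 := Subtype.ext D.on1, on4'' := Subtype.ext D.on4'' }
    (IsLocalRing.residue _)

theorem Chain.reduce_x_ne_zero (D : Chain A C) (hA : v A ≤ 1) (hC : v C ≤ 1)
    (hD : D.IsIntegral v) : (D.reduce hA hC hD).x2 ≠ 0 ∧ (D.reduce hA hC hD).x4 ≠ 0 :=
  ⟨fun h => ((red_eq_zero_iff v hD.hx2.le).mp h).ne hD.hx2,
    fun h => ((red_eq_zero_iff v hD.hx4.le).mp h).ne hD.hx4⟩

/-- The relation defining `U` reduces. -/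
theorem Chain.reduce_U (D : Chain A C) (hA : v A = 1) (hC : v C = 1) (hD : D.IsIntegral v)
    (h2 : D.x2 ≠ 0) (h4 : D.x4 ≠ 0) :
    red v D.U (val_U hA hC h2 h4).le * ((D.reduce hA.le hC.le hD).x4 *
        (D.reduce hA.le hC.le hD).x2 ^ 2 *
        fF (red v C hC.le) (D.reduce hA.le hC.le hD).x1 (D.reduce hA.le hC.le hD).y1) =
      -(red v A hA.le * red v C hC.le ^ 2 * (D.reduce hA.le hC.le hD).n4 *
        (D.reduce hA.le hC.le hD).n2 ^ 2) := by
  have hA0 : A ≠ 0 := v.ne_zero_iff.mp (by rw [hA]; exact one_ne_zero)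
  have hC0 : C ≠ 0 := v.ne_zero_iff.mp (by rw [hC]; exact one_ne_zero)
  have e : D.U * (D.x4 * D.x2 ^ 2 * fF C D.x1 D.y1) = -(A * C ^ 2 * D.n4 * D.n2 ^ 2) :=
    div_mul_cancel₀ _ (mul_ne_zero (mul_ne_zero h4 (pow_ne_zero 2 h2)) (D.fF1_ne_zero hA0 hC0))
  simp only [Chain.reduce, Chain.map, red, fF, ← map_mul, ← map_pow, ← map_neg, ← map_sub,
    ← map_add]
  exact congrArg (IsLocalRing.residue _) (Subtype.ext (by simpa [fF] using e))

end Residue

end FA.TwentyFive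

end
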